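/-
P-ORD (S33), block (G-B), helper5: REDUCTION OF DOUBLY INTEGRAL SECTIONS on the nodal fibre.

For `m ∈ O = V_∞ ∩ V_0` without pole over the nodes:
* `ord_node_oo_nonneg`, `ord_node_zero_nonneg` : the two reductions are regular at the node
  branches (from (M3) `node_le`);
* `ord_eq_zero_over_node` : no zero over a node where the reduction on `C_∞` is a unit
  (from (M3) `node_lt`);
* `isGlued_red` : the pair of reductions is GLUED (from (M4) `glue`, after adding a constant);
* `redOoO_mem_rr`, `red0O_mem_rr` : `m ∈ L(n P_∞ + n P_0)` reduces into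
  `L(n Q_∞) × L(n Q_0)` (from (M2)).
-/
import Fermat.Agent.H94.ORD.JacGlue
import Fermat.Agent.H94.FF.G7Prelim

set_option autoImplicit false
set_option synthInstance.maxHeartbeats 400000
set_option maxHeartbeats 1600000
set_option linter.style.haveILetI false
set_option linter.unusedSectionVars false

noncomputable section

open AlgebraicCurve ModularCurve Fermat.Agent.H27.ESD

namespace Fermat.Agent.H5.ORD

open Fermat.Agent.H10.FF Fermat.Agent.H72.FF Fermat.Agent.H18.ORD Fermat.Agent.H92.ORD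
  Fermat.Agent.H94.FF Fermat.Agent.H94.ORD

variable {N p : ℕ} {A : ValuationSubring Qb} {Foo F0 : Type} [Field Foo] [Field F0]
  [Algebra (kRes A) Foo] [Algebra (kRes A) F0] {ι : Type} {G : NodalData N A Foo F0 ι} {g : ℕ}

theorem rg_p_mem (hS : NodalSetup N p A G g) : (p : Qb) ∈ A.nonunits := hS.liesOver

theorem rg_p_ne_zero (hS : NodalSetup N p A G g) : (p : Qb) ≠ 0 := by
  have := hS.prime.ne_zero
  exact_mod_cast this

theorem rg_coe_ne_zero_oo {m : nodalO G} (hx : redOoO G m ≠ 0) : (m : FLb N) ≠ 0 := by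
  intro h
  apply hx
  have : m = 0 := Subtype.ext h
  rw [this, map_zero]

theorem rg_coe_ne_zero_zero {m : nodalO G} (hx : red0O G m ≠ 0) : (m : FLb N) ≠ 0 := by
  intro h
  apply hx
  have : m = 0 := Subtype.ext h
  rw [this, map_zero]

/-- a constant `c` with `m = c w`, `w` a unit of `V_0`, `red_0 m = 0` is a nonzero nonunit -/
theorem rg_const_nonunit_zero (hS : NodalSetup N p A G g) (m : nodalO G)
    (hy : red0O G m = 0) (c : Qb) (w : G.V0) (hc : c ≠ 0) (hw : G.red0 w ≠ 0)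
    (hm : (m : FLb N) = algebraMap Qb (FLb N) c * (w : FLb N)) : c ∈ A.nonunits := by
  have hwi := hS.rv.inv_zero w hw
  have hw0 : (w : FLb N) ≠ 0 := by
    intro h
    apply hw
    have : w = 0 := Subtype.ext h
    rw [this, map_zero]
  have hcV : algebraMap Qb (FLb N) c ∈ G.V0 := by
    have : algebraMap Qb (FLb N) c = (m : FLb N) * (w : FLb N)⁻¹ := by
      rw [hm, mul_assoc, mul_inv_cancel₀ hw0, mul_one]
    rw [this]
    exact G.V0.mul_mem m.2.2 hwi
  have hcA : c ∈ A := (hS.rv.const_zero c).mp hcV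
  rw [ValuationSubring.mem_nonunits_iff_exists_mem_maximalIdeal]
  refine ⟨hcA, ?_⟩
  rw [IsLocalRing.mem_maximalIdeal, mem_nonunits_iff]
  intro hu
  have hres : IsLocalRing.residue A ⟨c, hcA⟩ ≠ 0 := by
    rw [Ne, nv_residue_ker]
    exact not_not.mpr hu
  have hmul : (⟨(m : FLb N), m.2.2⟩ : G.V0) = ⟨algebraMap Qb (FLb N) c, hcV⟩ * w :=
    Subtype.ext hm
  have h1 : red0O G m = G.red0 (⟨algebraMap Qb (FLb N) c, hcV⟩ * w) := by
    rw [red0O_apply, hmul]
  rw [map_mul, hS.rv.red_const_zero ⟨c, hcA⟩ hcV] at h1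
  rw [hy] at h1
  have h2 := mul_eq_zero.mp h1.symm
  rcases h2 with h2 | h2
  · rw [map_eq_zero_iff _ (algebraMap (kRes A) F0).injective] at h2
    exact hres h2
  · exact hw h2

/-- a constant `c` with `m = c u`, `u` a unit of `V_∞`, `red_∞ m = 0` is a nonzero nonunit -/
theorem rg_const_nonunit_oo (hS : NodalSetup N p A G g) (m : nodalO G)
    (hx : redOoO G m = 0) (c : Qb) (u : G.Voo) (hc : c ≠ 0) (hu : G.redOo u ≠ 0)
    (hm : (m : FLb N) = algebraMap Qb (FLb N) c * (u : FLb N)) : c ∈ A.nonunits := by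
  have hui := hS.rv.inv_oo u hu
  have hu0 : (u : FLb N) ≠ 0 := by
    intro h
    apply hu
    have : u = 0 := Subtype.ext h
    rw [this, map_zero]
  have hcV : algebraMap Qb (FLb N) c ∈ G.Voo := by
    have : algebraMap Qb (FLb N) c = (m : FLb N) * (u : FLb N)⁻¹ := by
      rw [hm, mul_assoc, mul_inv_cancel₀ hu0, mul_one]
    rw [this]
    exact G.Voo.mul_mem m.2.1 hui
  have hcA : c ∈ A := (hS.rv.const_oo c).mp hcV
  rw [ValuationSubring.mem_nonunits_iff_exists_mem_maximalIdeal]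
  refine ⟨hcA, ?_⟩
  rw [IsLocalRing.mem_maximalIdeal, mem_nonunits_iff]
  intro hunit
  have hres : IsLocalRing.residue A ⟨c, hcA⟩ ≠ 0 := by
    rw [Ne, nv_residue_ker]
    exact not_not.mpr hunit
  have hmul : (⟨(m : FLb N), m.2.1⟩ : G.Voo) = ⟨algebraMap Qb (FLb N) c, hcV⟩ * u :=
    Subtype.ext hm
  have h1 : redOoO G m = G.redOo (⟨algebraMap Qb (FLb N) c, hcV⟩ * u) := by
    rw [redOoO_apply, hmul]
  rw [map_mul, hS.rv.red_const_oo ⟨c, hcA⟩ hcV] at h1
  rw [hx] at h1
  have h2 := mul_eq_zero.mp h1.symm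
  rcases h2 with h2 | h2
  · rw [map_eq_zero_iff _ (algebraMap (kRes A) Foo).injective] at h2
    exact hres h2
  · exact hu h2

/-- **regularity at the node branch on `C_∞`** -/
theorem ord_node_oo_nonneg (hS : NodalSetup N p A G g) (m : nodalO G) (ν : ι)
    (hnp : ∀ P, G.r P = NPt.node ν → 0 ≤ P.ord (m : FLb N)) (hx : redOoO G m ≠ 0) :
    0 ≤ (G.nOo ν).ord (redOoO G m) := by
  by_cases hy : red0O G m = 0
  · obtain ⟨c, w, hc, hw, hm⟩ := hS.rv.norm_zero (m : FLb N) (rg_coe_ne_zero_oo hx)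
    have hcn := rg_const_nonunit_zero hS m hy c w hc hw hm
    have hwm : (w : FLb N) = algebraMap Qb (FLb N) c⁻¹ * ((⟨(m : FLb N), m.2.1⟩ : G.Voo) : FLb N) := by
      show (w : FLb N) = algebraMap Qb (FLb N) c⁻¹ * (m : FLb N)
      rw [hm, ← mul_assoc, ← map_mul, inv_mul_cancel₀ hc, map_one, one_mul]
    have h1 := (hS.rv.node_le ⟨(m : FLb N), m.2.1⟩ w c⁻¹ hx hw hwm ν hnp).1
    have h2 := na_one_le_of_not_mem (A.nonunits_subset (rg_p_mem hS)) (rg_p_ne_zero hS)
      (by
        intro hci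
        rcases A.mem_nonunits_iff_or.mp hcn with h0 | h0
        · exact hc h0
        · exact h0 hci) h1
    have h3 : (G.nOo ν).ord (redOoO G m) = (G.nOo ν).ord (G.redOo ⟨(m : FLb N), m.2.1⟩) := rfl
    omega
  · have hmm : ((⟨(m : FLb N), m.2.2⟩ : G.V0) : FLb N) =
        algebraMap Qb (FLb N) 1 * ((⟨(m : FLb N), m.2.1⟩ : G.Voo) : FLb N) := by
      rw [map_one, one_mul]
    have h1 := (hS.rv.node_le ⟨(m : FLb N), m.2.1⟩ ⟨(m : FLb N), m.2.2⟩ 1 hx hy hmm ν hnp).1
    exact na_nonneg_of_unit (rg_p_mem hS) (rg_p_ne_zero hS) one_ne_zero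
      (by rw [inv_one]; exact A.one_mem) h1

/-- **regularity at the node branch on `C_0`** -/
theorem ord_node_zero_nonneg (hS : NodalSetup N p A G g) (m : nodalO G) (ν : ι)
    (hnp : ∀ P, G.r P = NPt.node ν → 0 ≤ P.ord (m : FLb N)) (hy : red0O G m ≠ 0) :
    0 ≤ (G.n0 ν).ord (red0O G m) := by
  by_cases hx : redOoO G m = 0
  · obtain ⟨c, u, hc, hu, hm⟩ := hS.rv.norm_oo (m : FLb N) (rg_coe_ne_zero_zero hy)
    have hcn := rg_const_nonunit_oo hS m hx c u hc hu hm
    have hnpu : ∀ P, G.r P = NPt.node ν → 0 ≤ P.ord (u : FLb N) := by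
      intro P hP
      have := hnp P hP
      rwa [hm, nb_ord_const_mul P hc] at this
    have h1 := (hS.rv.node_le u ⟨(m : FLb N), m.2.2⟩ c hu hy hm ν hnpu).2
    have h2 := na_one_le_of_mem_nonunits (A.nonunits_subset (rg_p_mem hS)) (rg_p_ne_zero hS)
      hcn hc h1
    have h3 : (G.n0 ν).ord (red0O G m) = (G.n0 ν).ord (G.red0 ⟨(m : FLb N), m.2.2⟩) := rfl
    omega
  · have hmm : ((⟨(m : FLb N), m.2.2⟩ : G.V0) : FLb N) =
        algebraMap Qb (FLb N) 1 * ((⟨(m : FLb N), m.2.1⟩ : G.Voo) : FLb N) := by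
      rw [map_one, one_mul]
    have h1 := (hS.rv.node_le ⟨(m : FLb N), m.2.1⟩ ⟨(m : FLb N), m.2.2⟩ 1 hx hy hmm ν hnp).2
    exact na_nonneg_of_unit (rg_p_mem hS) (rg_p_ne_zero hS) one_ne_zero
      (by rw [inv_one]; exact A.one_mem) (by rwa [inv_one] at h1)

/-- **no zero over a node** where the reduction on `C_∞` is a unit -/
theorem ord_eq_zero_over_node (hS : NodalSetup N p A G g) (m : nodalO G) (ν : ι)
    (hnp : ∀ P, G.r P = NPt.node ν → 0 ≤ P.ord (m : FLb N)) (hx : redOoO G m ≠ 0)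
    (hy : red0O G m ≠ 0) (ha : (G.nOo ν).ord (redOoO G m) = 0) :
    ∀ P, G.r P = NPt.node ν → P.ord (m : FLb N) = 0 := by
  intro P hP
  by_contra h0
  have hpos : 0 < P.ord (m : FLb N) := lt_of_le_of_ne (hnp P hP) (Ne.symm h0)
  have hmm : ((⟨(m : FLb N), m.2.2⟩ : G.V0) : FLb N) =
      algebraMap Qb (FLb N) 1 * ((⟨(m : FLb N), m.2.1⟩ : G.Voo) : FLb N) := by
    rw [map_one, one_mul]
  have h1 := (hS.rv.node_lt ⟨(m : FLb N), m.2.1⟩ ⟨(m : FLb N), m.2.2⟩ 1 hx hy hmm ν hnp
    ⟨P, hP, hpos⟩).1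
  have h2 : (G.nOo ν).ord (G.redOo ⟨(m : FLb N), m.2.1⟩) = 0 := ha
  rw [h2, zpow_zero, one_mul] at h1
  exact na_unit_not_mem_nonunits one_ne_zero (by rw [inv_one]; exact A.one_mem) h1

/-- the sum of two functions without pole at `P` has no pole at `P` -/
theorem rg_ord_add_nonneg {K F : Type*} [Field K] [Field F] [Algebra K F] (P : Place K F)
    {f h : F} (hf : f = 0 ∨ 0 ≤ P.ord f) (hh : h = 0 ∨ 0 ≤ P.ord h) (hfh : f + h ≠ 0) :
    0 ≤ P.ord (f + h) := by
  have h1 : f ∈ P.toValuationSubring := (Fermat.Agent.H23.mem_iff_ord P).mpr hf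
  have h2 : h ∈ P.toValuationSubring := (Fermat.Agent.H23.mem_iff_ord P).mpr hh
  have h3 := (Fermat.Agent.H23.mem_iff_ord P).mp (P.toValuationSubring.add_mem _ _ h1 h2)
  exact h3.resolve_left hfh

/-- **the reductions of a doubly integral function without pole over the nodes are glued** -/
theorem isGlued_red (hS : NodalSetup N p A G g) [Infinite (kRes A)]
    (hdeg : ∀ v : Place (kRes A) Foo, v.deg = 1) (m : nodalO G)
    (hnp : ∀ P ν, G.r P = NPt.node ν → 0 ≤ P.ord (m : FLb N)) :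
    IsGlued G (redOoO G m) (red0O G m) := by
  classical
  intro ν
  -- the value of the reduction on `C_∞` at the node branch
  obtain ⟨κ₁, hκ₁⟩ : ∃ κ₁ : kRes A, HasVal (G.nOo ν) (redOoO G m) κ₁ := by
    by_cases hx : redOoO G m = 0
    · exact ⟨0, hx ▸ hasVal_zero (G.nOo ν)⟩
    · exact exists_hasVal (hdeg _) (ord_node_oo_nonneg hS m ν (fun P hP => hnp P ν hP) hx)
  -- a constant avoiding three values
  have hfin : ({-κ₁} ∪ {c | algebraMap (kRes A) Foo c = -redOoO G m} ∪
      {c | algebraMap (kRes A) F0 c = -red0O G m} : Set (kRes A)).Finite := by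
    refine ((Set.finite_singleton _).union ?_).union ?_
    · refine Set.Subsingleton.finite ?_
      intro a ha b hb
      exact (algebraMap (kRes A) Foo).injective (ha.trans hb.symm)
    · refine Set.Subsingleton.finite ?_
      intro a ha b hb
      exact (algebraMap (kRes A) F0).injective (ha.trans hb.symm)
  obtain ⟨cb, hcb⟩ := hfin.exists_notMem
  simp only [Set.mem_union, Set.mem_singleton_iff, Set.mem_setOf_eq, not_or] at hcb
  obtain ⟨⟨hcb1, hcb2⟩, hcb3⟩ := hcb
  obtain ⟨c₀, rfl⟩ := IsLocalRing.residue_surjective (R := A) cb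
  set u : nodalO G := m + nodalConst hS.rv c₀ with hu
  have hredOo : redOoO G u = redOoO G m + algebraMap (kRes A) Foo (IsLocalRing.residue A c₀) := by
    rw [hu, map_add, redOoO_nodalConst]
  have hred0 : red0O G u = red0O G m + algebraMap (kRes A) F0 (IsLocalRing.residue A c₀) := by
    rw [hu, map_add, red0O_nodalConst]
  have hux : redOoO G u ≠ 0 := by
    rw [hredOo]
    intro h
    exact hcb2 (eq_neg_of_add_eq_zero_right h)
  have huy : red0O G u ≠ 0 := by
    rw [hred0]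
    intro h
    exact hcb3 (eq_neg_of_add_eq_zero_right h)
  have hu0 : (u : FLb N) ≠ 0 := rg_coe_ne_zero_oo hux
  have hunp : ∀ P, G.r P = NPt.node ν → 0 ≤ P.ord (u : FLb N) := by
    intro P hP
    have hcoe : (u : FLb N) = (m : FLb N) + algebraMap Qb (FLb N) (c₀ : Qb) := rfl
    rw [hcoe]
    rw [hcoe] at hu0
    refine rg_ord_add_nonneg P ?_ (Or.inr ?_) hu0
    · exact Or.inr (hnp P ν hP)
    · rw [Fermat.Agent.H23.ord_algebraMap]
  have hval : HasVal (G.nOo ν) (redOoO G u) (κ₁ + IsLocalRing.residue A c₀) := by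
    rw [hredOo]
    exact hκ₁.add (hasVal_const (G.nOo ν) _)
  have hne : κ₁ + IsLocalRing.residue A c₀ ≠ 0 := by
    intro h
    exact hcb1 (eq_neg_of_add_eq_zero_right h)
  have hord0 : (G.nOo ν).ord (redOoO G u) = 0 := hval.ord_eq_zero hne
  have hnz := ord_eq_zero_over_node hS u ν hunp hux huy hord0
  obtain ⟨κ, -, hκoo, hκ0⟩ := hS.rv.glue (u : FLb N) u.2.1 u.2.2 hux huy ν hnz
  refine ⟨κ - IsLocalRing.residue A c₀, ?_, ?_⟩
  · have : redOoO G m - algebraMap (kRes A) Foo (κ - IsLocalRing.residue A c₀) =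
        G.redOo ⟨(u : FLb N), u.2.1⟩ - algebraMap (kRes A) Foo κ := by
      have h1 : G.redOo ⟨(u : FLb N), u.2.1⟩ = redOoO G u := rfl
      rw [h1, hredOo, map_sub]
      ring
    rw [this]
    exact hκoo
  · have : red0O G m - algebraMap (kRes A) F0 (κ - IsLocalRing.residue A c₀) =
        G.red0 ⟨(u : FLb N), u.2.2⟩ - algebraMap (kRes A) F0 κ := by
      have h1 : G.red0 ⟨(u : FLb N), u.2.2⟩ = red0O G u := rfl
      rw [h1, hred0, map_sub]
      ring
    rw [this]
    exact hκ0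

/-- elements of `L(n P∞ + n P0)` have no poles outside `P∞`, `P0` -/
theorem ord_nonneg_of_mem_rr_two {K F : Type*} [Field K] [Field F] [Algebra K F]
    {Poo P0 : Place K F} {n : ℤ} {y : F}
    (hy : y ∈ riemannRochSpace (Finsupp.single Poo n + Finsupp.single P0 n)) {P : Place K F}
    (hP : P ≠ Poo) (hP0 : P ≠ P0) : 0 ≤ P.ord y := by
  classical
  rcases (mem_riemannRochSpace_iff.mp hy) P with h | h
  · rw [h, Place.ord_zero]
  · rw [Finsupp.add_apply, Finsupp.single_apply, Finsupp.single_apply, if_neg (Ne.symm hP),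
      if_neg (Ne.symm hP0)] at h
    simpa using h

/-- the pole order at `P∞` of an element of `L(n P∞ + n P0)`, `P∞ ≠ P0` -/
theorem ord_ge_of_mem_rr_two_left {K F : Type*} [Field K] [Field F] [Algebra K F]
    {Poo P0 : Place K F} (hne : Poo ≠ P0) {n : ℤ} {y : F}
    (hy : y ∈ riemannRochSpace (Finsupp.single Poo n + Finsupp.single P0 n)) (hy0 : y ≠ 0) :
    -n ≤ Poo.ord y := by
  classical
  rcases (mem_riemannRochSpace_iff.mp hy) Poo with h | h
  · exact absurd h hy0
  · rwa [Finsupp.add_apply, Finsupp.single_apply, Finsupp.single_apply, if_pos rfl,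
      if_neg (Ne.symm hne), add_zero] at h

/-- the pole order at `P0` of an element of `L(n P∞ + n P0)`, `P∞ ≠ P0` -/
theorem ord_ge_of_mem_rr_two_right {K F : Type*} [Field K] [Field F] [Algebra K F]
    {Poo P0 : Place K F} (hne : Poo ≠ P0) {n : ℤ} {y : F}
    (hy : y ∈ riemannRochSpace (Finsupp.single Poo n + Finsupp.single P0 n)) (hy0 : y ≠ 0) :
    -n ≤ P0.ord y := by
  classical
  rcases (mem_riemannRochSpace_iff.mp hy) P0 with h | h
  · exact absurd h hy0
  · rwa [Finsupp.add_apply, Finsupp.single_apply, Finsupp.single_apply, if_neg hne,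
      if_pos rfl, zero_add] at h

section rr

variable {Poo P0 : Place Qb (FLb N)} {Qoo : Place (kRes A) Foo} {Q0 : Place (kRes A) F0}

theorem rg_Poo_ne_P0 (hPoo : G.r Poo = NPt.oo Qoo) (hP0 : G.r P0 = NPt.zero Q0) : Poo ≠ P0 := by
  rintro rfl
  rw [hPoo] at hP0
  cases hP0

/-- no pole over the nodes for elements of `L(n P∞ + n P0)` -/
theorem rg_no_pole_node (hPoo : G.r Poo = NPt.oo Qoo) (hP0 : G.r P0 = NPt.zero Q0) {n : ℕ}
    {y : FLb N}
    (hy : y ∈ riemannRochSpace (Finsupp.single Poo (n : ℤ) + Finsupp.single P0 (n : ℤ)))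
    (P : Place Qb (FLb N)) (ν : ι) (hP : G.r P = NPt.node ν) : 0 ≤ P.ord y := by
  refine ord_nonneg_of_mem_rr_two hy ?_ ?_
  · rintro rfl
    rw [hPoo] at hP
    cases hP
  · rintro rfl
    rw [hP0] at hP
    cases hP

/-- **reduction of `L(n P∞ + n P0)` on `C_∞`** -/
theorem redOoO_mem_rr (hS : NodalSetup N p A G g) (hPoo : G.r Poo = NPt.oo Qoo)
    (hP0 : G.r P0 = NPt.zero Q0) (n : ℕ) (m : nodalO G)
    (hm : (m : FLb N) ∈
      riemannRochSpace (Finsupp.single Poo (n : ℤ) + Finsupp.single P0 (n : ℤ))) :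
    redOoO G m ∈ riemannRochSpace (Finsupp.single Qoo (n : ℤ)) := by
  classical
  rw [mem_riemannRochSpace_iff]
  intro Q
  by_cases hx : redOoO G m = 0
  · exact Or.inl hx
  right
  have hQoo : Qoo ∉ Set.range G.nOo := hS.rv.r_oo Poo Qoo hPoo
  by_cases hQ : Q ∈ Set.range G.nOo
  · obtain ⟨ν, rfl⟩ := hQ
    have hne : Qoo ≠ G.nOo ν := fun h => hQoo ⟨ν, h.symm⟩
    rw [Finsupp.single_apply, if_neg hne, neg_zero]
    exact ord_node_oo_nonneg hS m ν (fun P hP => rg_no_pole_node hPoo hP0 hm P ν hP) hx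
  · obtain ⟨D, hD, -⟩ := hS.pkgL.principal.exists_divisor (m : FLb N) (rg_coe_ne_zero_oo hx)
    have hcons := hS.rv.smooth_oo ⟨(m : FLb N), m.2.1⟩ hx D hD Q hQ
    have hcons' : Finsupp.mapDomain G.r D (NPt.oo Q) = Q.ord (redOoO G m) := hcons
    rw [← hcons']
    by_cases hQQ : Q = Qoo
    · subst hQQ
      rw [Finsupp.single_apply, if_pos rfl]
      -- add `n P∞`
      have h1 : 0 ≤ Finsupp.mapDomain G.r (D + Finsupp.single Poo (n : ℤ)) (NPt.oo Q) := by
        refine Fermat.Agent.H18.rv_mapDomain_nonneg_fibre G.r _ _ ?_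
        intro P hP
        rw [Finsupp.add_apply, hD, Finsupp.single_apply]
        by_cases hPP : Poo = P
        · subst hPP
          rw [if_pos rfl]
          have := ord_ge_of_mem_rr_two_left (rg_Poo_ne_P0 hPoo hP0) hm (rg_coe_ne_zero_oo hx)
          omega
        · rw [if_neg hPP, add_zero]
          refine ord_nonneg_of_mem_rr_two hm (Ne.symm hPP) ?_
          rintro rfl
          rw [hP0] at hP
          cases hP
      rw [Finsupp.mapDomain_add, Finsupp.add_apply, Finsupp.mapDomain_single, hPoo,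
        Finsupp.single_apply, if_pos rfl] at h1
      omega
    · rw [Finsupp.single_apply, if_neg (Ne.symm hQQ), neg_zero]
      refine Fermat.Agent.H18.rv_mapDomain_nonneg_fibre G.r _ _ ?_
      intro P hP
      rw [hD]
      refine ord_nonneg_of_mem_rr_two hm ?_ ?_
      · rintro rfl
        rw [hPoo] at hP
        exact hQQ (npt_oo_injective hP).symm
      · rintro rfl
        rw [hP0] at hP
        cases hP

/-- **reduction of `L(n P∞ + n P0)` on `C_0`** -/
theorem red0O_mem_rr (hS : NodalSetup N p A G g) (hPoo : G.r Poo = NPt.oo Qoo)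
    (hP0 : G.r P0 = NPt.zero Q0) (n : ℕ) (m : nodalO G)
    (hm : (m : FLb N) ∈
      riemannRochSpace (Finsupp.single Poo (n : ℤ) + Finsupp.single P0 (n : ℤ))) :
    red0O G m ∈ riemannRochSpace (Finsupp.single Q0 (n : ℤ)) := by
  classical
  rw [mem_riemannRochSpace_iff]
  intro Q
  by_cases hx : red0O G m = 0
  · exact Or.inl hx
  right
  have hQ0 : Q0 ∉ Set.range G.n0 := hS.rv.r_zero P0 Q0 hP0
  by_cases hQ : Q ∈ Set.range G.n0
  · obtain ⟨ν, rfl⟩ := hQ
    have hne : Q0 ≠ G.n0 ν := fun h => hQ0 ⟨ν, h.symm⟩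
    rw [Finsupp.single_apply, if_neg hne, neg_zero]
    exact ord_node_zero_nonneg hS m ν (fun P hP => rg_no_pole_node hPoo hP0 hm P ν hP) hx
  · obtain ⟨D, hD, -⟩ := hS.pkgL.principal.exists_divisor (m : FLb N) (rg_coe_ne_zero_zero hx)
    have hcons := hS.rv.smooth_zero ⟨(m : FLb N), m.2.2⟩ hx D hD Q hQ
    have hcons' : Finsupp.mapDomain G.r D (NPt.zero Q) = Q.ord (red0O G m) := hcons
    rw [← hcons']
    by_cases hQQ : Q = Q0
    · subst hQQ
      rw [Finsupp.single_apply, if_pos rfl]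
      have h1 : 0 ≤ Finsupp.mapDomain G.r (D + Finsupp.single P0 (n : ℤ)) (NPt.zero Q) := by
        refine Fermat.Agent.H18.rv_mapDomain_nonneg_fibre G.r _ _ ?_
        intro P hP
        rw [Finsupp.add_apply, hD, Finsupp.single_apply]
        by_cases hPP : P0 = P
        · subst hPP
          rw [if_pos rfl]
          have := ord_ge_of_mem_rr_two_right (rg_Poo_ne_P0 hPoo hP0) hm
            (rg_coe_ne_zero_zero hx)
          omega
        · rw [if_neg hPP, add_zero]
          refine ord_nonneg_of_mem_rr_two hm ?_ (Ne.symm hPP)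
          rintro rfl
          rw [hPoo] at hP
          cases hP
      rw [Finsupp.mapDomain_add, Finsupp.add_apply, Finsupp.mapDomain_single, hP0,
        Finsupp.single_apply, if_pos rfl] at h1
      omega
    · rw [Finsupp.single_apply, if_neg (Ne.symm hQQ), neg_zero]
      refine Fermat.Agent.H18.rv_mapDomain_nonneg_fibre G.r _ _ ?_
      intro P hP
      rw [hD]
      refine ord_nonneg_of_mem_rr_two hm ?_ ?_
      · rintro rfl
        rw [hPoo] at hP
        cases hP
      · rintro rfl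
        rw [hP0] at hP
        exact hQQ (npt_zero_injective hP).symm

end rr

end Fermat.Agent.H5.ORD
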