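/-
P-ORD (S33), block (G-B), row 1149 (N-F2), helper5 (second seat for helper94):
`f2FamilyN : AuxSectionsN → LiftBasisN → MovingZerosN → RedKernelN → CramerStatement → F2FamilyN`,
the nodal twin of `Fermat.Agent.H94.FF.f2Family`.
-/
import Fermat.Agent.H5.ORD.RedGlue

set_option autoImplicit false
set_option synthInstance.maxHeartbeats 400000
set_option maxHeartbeats 3200000
set_option linter.style.haveILetI false
set_option linter.unusedSectionVars false

noncomputable section

open AlgebraicCurve ModularCurve Fermat.Agent.H27.ESD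

namespace Fermat.Agent.H5.ORD

open Fermat.Agent.H10.FF Fermat.Agent.H72.FF Fermat.Agent.H18.ORD Fermat.Agent.H92.ORD
  Fermat.Agent.H94.FF Fermat.Agent.H94.ORD

variable {N p : ℕ} {A : ValuationSubring Qb} {Foo F0 : Type} [Field Foo] [Field F0]
  [Algebra (kRes A) Foo] [Algebra (kRes A) F0] {ι : Type} {G : NodalData N A Foo F0 ι} {g : ℕ}

/-- the index type of the conditions -/
abbrev CondIdxN {g : ℕ} (Zx : Fin g ⊕ Fin g → Finset (NP A Foo F0 ι)) : Type :=
  Fin g ⊕ (Σ a : Fin g ⊕ Fin g, {v // v ∈ Zx a})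

theorem card_condIdxN {g : ℕ} (Zx : Fin g ⊕ Fin g → Finset (NP A Foo F0 ι))
    (nn : Fin g ⊕ Fin g → ℕ) (hcard : ∀ a, (Zx a).card + 1 = 2 * nn a) :
    Fintype.card (CondIdxN Zx) + g = 2 * ∑ a, nn a := by
  rw [Fintype.card_sum, Fintype.card_fin, Fintype.card_sigma]
  have h1 : ∀ a, Fintype.card {v // v ∈ Zx a} = (Zx a).card := fun a => Fintype.card_coe _
  simp only [h1]
  have h2 : 2 * ∑ a, nn a = ∑ a, ((Zx a).card + 1) := by
    rw [Finset.mul_sum]
    exact Finset.sum_congr rfl fun a _ => (hcard a).symm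
  rw [h2, Finset.sum_add_distrib, Finset.sum_const, Finset.card_univ, Fintype.card_sum,
    Fintype.card_fin]
  simp
  omega

/-- the value at the smooth point `v` of the reduction of `y` on the component of `v` -/
def redValAt (G : NodalData N A Foo F0 ι) (v : NP A Foo F0 ι) (y : nodalO G) : kRes A :=
  match v with
  | NPt.oo Q => valAt Q (redOoO G y)
  | NPt.zero Q => valAt Q (red0O G y)
  | NPt.node _ => 0

/-- the base divisor on `C_∞` at a base point -/
theorem baseOo_apply_of_eq (G : NodalData N A Foo F0 ι) {g : ℕ} (O : Fin g → Place Qb (FLb N))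
    (hinj : Function.Injective (fun i => G.r (O i))) (i : Fin g) (Q : Place (kRes A) Foo)
    (h : G.r (O i) = NPt.oo Q) : baseOo G O Q = 1 := by
  classical
  unfold baseOo
  rw [Finsupp.finsetSum_apply, Finset.sum_eq_single i]
  · rw [h]
    simp
  · intro j _ hji
    have hne : G.r (O j) ≠ NPt.oo Q := fun hj => hji (hinj (hj.trans h.symm))
    rcases hj : G.r (O j) with Q' | Q' | ν
    · have : Q' ≠ Q := fun hQ => hne (hj.trans (by rw [hQ]))
      simp [this]
    · simp
    · simp
  · intro hi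
    exact absurd (Finset.mem_univ i) hi

theorem baseOo_apply_of_ne (G : NodalData N A Foo F0 ι) {g : ℕ} (O : Fin g → Place Qb (FLb N))
    (Q : Place (kRes A) Foo) (h : ∀ i, G.r (O i) ≠ NPt.oo Q) : baseOo G O Q = 0 := by
  classical
  unfold baseOo
  rw [Finsupp.finsetSum_apply]
  refine Finset.sum_eq_zero fun j _ => ?_
  rcases hj : G.r (O j) with Q' | Q' | ν
  · have : Q' ≠ Q := fun hQ => h j (hj.trans (by rw [hQ]))
    simp [this]
  · simp
  · simp

theorem baseZero_apply_of_eq (G : NodalData N A Foo F0 ι) {g : ℕ}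
    (O : Fin g → Place Qb (FLb N))
    (hinj : Function.Injective (fun i => G.r (O i))) (i : Fin g) (Q : Place (kRes A) F0)
    (h : G.r (O i) = NPt.zero Q) : baseZero G O Q = 1 := by
  classical
  unfold baseZero
  rw [Finsupp.finsetSum_apply, Finset.sum_eq_single i]
  · rw [h]
    simp
  · intro j _ hji
    have hne : G.r (O j) ≠ NPt.zero Q := fun hj => hji (hinj (hj.trans h.symm))
    rcases hj : G.r (O j) with Q' | Q' | ν
    · simp
    · have : Q' ≠ Q := fun hQ => hne (hj.trans (by rw [hQ]))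
      simp [this]
    · simp
  · intro hi
    exact absurd (Finset.mem_univ i) hi

theorem baseZero_apply_of_ne (G : NodalData N A Foo F0 ι) {g : ℕ}
    (O : Fin g → Place Qb (FLb N))
    (Q : Place (kRes A) F0) (h : ∀ i, G.r (O i) ≠ NPt.zero Q) : baseZero G O Q = 0 := by
  classical
  unfold baseZero
  rw [Finsupp.finsetSum_apply]
  refine Finset.sum_eq_zero fun j _ => ?_
  rcases hj : G.r (O j) with Q' | Q' | ν
  · simp
  · have : Q' ≠ Q := fun hQ => h j (hj.trans (by rw [hQ]))
    simp [this]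
  · simp

theorem coe_sum_nodalConst_mul (H : NodalRvHyp p G) {d : ℕ} (κ : Fin d → A)
    (m : Fin d → nodalO G) :
    (((∑ j, nodalConst H (κ j) * m j : nodalO G)) : FLb N) =
      ∑ j, algebraMap Qb (FLb N) (κ j : Qb) * (m j : FLb N) := by
  rw [AddSubmonoidClass.coe_finsetSum]
  rfl

theorem redOoO_sum_nodalConst_mul (H : NodalRvHyp p G) {d : ℕ} (κ : Fin d → A)
    (m : Fin d → nodalO G) :
    redOoO G (∑ j, nodalConst H (κ j) * m j) =
      ∑ j, algebraMap (kRes A) Foo (IsLocalRing.residue A (κ j)) * redOoO G (m j) := by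
  rw [map_sum]
  refine Finset.sum_congr rfl fun j _ => ?_
  rw [map_mul, redOoO_nodalConst]

theorem red0O_sum_nodalConst_mul (H : NodalRvHyp p G) {d : ℕ} (κ : Fin d → A)
    (m : Fin d → nodalO G) :
    red0O G (∑ j, nodalConst H (κ j) * m j) =
      ∑ j, algebraMap (kRes A) F0 (IsLocalRing.residue A (κ j)) * red0O G (m j) := by
  rw [map_sum]
  refine Finset.sum_congr rfl fun j _ => ?_
  rw [map_mul, red0O_nodalConst]

/-- linear combinations of elements of `L(n P∞ + n P0)` -/
theorem sum_const_mul_mem_rr {K F : Type*} [Field K] [Field F] [Algebra K F]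
    {D : Divisor K F} {d : ℕ} (c : Fin d → K) (m : Fin d → F)
    (hm : ∀ j, m j ∈ riemannRochSpace D) :
    (∑ j, algebraMap K F (c j) * m j) ∈ riemannRochSpace D := by
  refine Submodule.sum_mem _ fun j _ => ?_
  rw [← Algebra.smul_def]
  exact Submodule.smul_mem _ _ (hm j)

/-- **[N-F2]** the first half of the nodal two-step. -/
theorem f2FamilyN (hAux : AuxSectionsN) (hBasis : LiftBasisN) (hMov : MovingZerosN)
    (hRK : RedKernelN) (hCr : CramerStatement) : F2FamilyN := by
  intro N p A Foo F0 _ _ _ _ ι G g hS hPkg O t hsys hg S _ n x hx Pt τ hPt hτv hτ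
  classical
  have H := hS.rv
  have hdegL := hS.pkgL.deg_one
  obtain ⟨gOo, gZ, pkgOo, pkgZ, -⟩ := hPkg.nc g hS.pkgL
  have hdegOo := pkgOo.deg_one
  have hdegZ := pkgZ.deg_one
  haveI : IsAlgClosed (kRes A) := hPkg.algClosed
  haveI : Infinite (kRes A) := IsAlgClosed.instInfinite
  obtain ⟨Poo, P0, Qoo, Q0, hrPoo, hrP0, hPooU, hP0U, hAux'⟩ :=
    hAux N p A Foo F0 ι G g hS hPkg O t hsys
  obtain ⟨n₀, hB⟩ := hBasis N p A Foo F0 ι G g hS hPkg Poo P0 Qoo Q0 hrPoo hrP0 hPooU hP0U
  obtain ⟨nn, u, Zx, hnn, huU, huL, hfam⟩ := hAux' n₀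
  have hn' : n₀ ≤ ∑ a, nn a :=
    (hnn (Sum.inl ⟨0, hg⟩)).trans
      (Finset.single_le_sum (f := nn) (fun _ _ => Nat.zero_le _) (Finset.mem_univ _))
  obtain ⟨d, m, hd, hmU, hmL, hmind, -⟩ := hB (∑ a, nn a) hn'
  obtain ⟨α, E, hα, hαapp, hαnu, hEr, hEzero, hEuniq, hEapp⟩ :=
    hMov N p A Foo F0 ι G g hS hPkg O t hsys S n x hx Pt τ hPt hτv hτ Poo P0 Qoo Q0 nn u Zx
      hrPoo hrP0 huU huL hfam
  -- the conditions
  have hcard : Fintype.card (CondIdxN Zx) + 1 = d := by
    have h1 := card_condIdxN Zx nn hfam.card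
    have h2 : 2 * ((∑ a, nn a : ℕ) : ℤ) = (Fintype.card (CondIdxN Zx) : ℤ) + (g : ℤ) := by
      have := congrArg (Nat.cast : ℕ → ℤ) h1
      push_cast at this
      push_cast
      linarith
    omega
  subst hcard
  let e : CondIdxN Zx ≃ Fin (Fintype.card (CondIdxN Zx)) := Fintype.equivFin _
  let pt : CondIdxN Zx → S → Place Qb (FLb N) :=
    fun c s => Sum.elim (fun i => O i) (fun q => E q.1 q.2.1 s) c
  let Qc : CondIdxN Zx → NP A Foo F0 ι := Sum.elim (fun i => G.r (O i)) (fun q => q.2.1)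
  have hptr : ∀ c s, G.r (pt c s) = Qc c := by
    intro c s
    rcases c with i | q
    · rfl
    · exact hEr q.1 q.2.1 q.2.2 s
  have hQcsm : ∀ c, IsSm G (Qc c) := by
    intro c
    rcases c with i | q
    · exact nodalCoord_isSm H (hsys.coord i)
    · exact hfam.sm_extra q.1 q.2.1 q.2.2
  have hQc_ne : ∀ c, Qc c ≠ NPt.oo Qoo ∧ Qc c ≠ NPt.zero Q0 := by
    intro c
    rcases c with i | q
    · exact hfam.qinf_ne i
    · exact ⟨fun h => (hfam.qinf_notMem q.1).1 (h ▸ q.2.2),
        fun h => (hfam.qinf_notMem q.1).2 (h ▸ q.2.2)⟩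
  have hm_np : ∀ j c P1, G.r P1 = Qc c → 0 ≤ P1.ord (m j : FLb N) := by
    intro j c P1 h
    refine ord_nonneg_of_mem_rr_two (hmL j) ?_ ?_
    · rintro rfl
      exact (hQc_ne c).1 (h.symm.trans hrPoo)
    · rintro rfl
      exact (hQc_ne c).2 (h.symm.trans hrP0)
  have hmC : ∀ j c, InComp G (Qc c) (m j : FLb N) := fun j c =>
    inComp_of_mem (Qc c) (hQcsm c) (m j).2
  have hCv : ∀ c j s, HasValue (pt c s) (m j : FLb N) (valAt (pt c s) (m j : FLb N)) :=
    fun c j s => hasVal_valAt_of_ord (hdegL _) (hm_np j c _ (hptr c s))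
  -- the reduced basis
  have hxbOo : ∀ j, redOoO G (m j) ∈
      riemannRochSpace (Finsupp.single Qoo (((∑ a, nn a : ℕ)) : ℤ)) :=
    fun j => redOoO_mem_rr hS hrPoo hrP0 _ (m j) (hmL j)
  have hxbZ : ∀ j, red0O G (m j) ∈
      riemannRochSpace (Finsupp.single Q0 (((∑ a, nn a : ℕ)) : ℤ)) :=
    fun j => red0O_mem_rr hS hrPoo hrP0 _ (m j) (hmL j)
  -- the value of the reduction at the points `Qc c`
  have hCb : ∀ c j, RedVal G (Qc c) (m j : FLb N) (redValAt G (Qc c) (m j)) := by
    intro c j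
    have hne := hQc_ne c
    rcases hQ : Qc c with Q | Q | ν
    · refine ⟨(m j).2.1, ?_⟩
      have hQne : Q ≠ Qoo := fun h => hne.1 (hQ.trans (by rw [h]))
      exact hasVal_valAt_of_ord (hdegOo _) (ord_nonneg_of_mem_rr_single (hxbOo j) hQne)
    · refine ⟨(m j).2.2, ?_⟩
      have hQne : Q ≠ Q0 := fun h => hne.2 (hQ.trans (by rw [h]))
      exact hasVal_valAt_of_ord (hdegZ _) (ord_nonneg_of_mem_rr_single (hxbZ j) hQne)
    · have := hQcsm c
      rw [hQ] at this
      exact this.elim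
  -- the matrices
  let C : Fin (Fintype.card (CondIdxN Zx)) → Fin (Fintype.card (CondIdxN Zx) + 1) → S → Qb :=
    fun c j s => valAt (pt (e.symm c) s) (m j : FLb N)
  let Cbar : S → Fin (Fintype.card (CondIdxN Zx)) → Fin (Fintype.card (CondIdxN Zx) + 1) →
      kRes A := fun _ c j => redValAt G (Qc (e.symm c)) (m j)
  have hCapp' : ∀ (c : CondIdxN Zx) j,
      IsApprox p A x (fun s => valAt (pt c s) (m j : FLb N)) := by
    intro c j
    rcases c with i | q
    · show IsApprox p A x (fun _ => valAt (O i) (m j : FLb N))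
      refine isApprox_const' ?_
      exact isUnr_value_mem_unrInt_nodal hS (G.r (O i)) (hQcsm (Sum.inl i)) (m j : FLb N)
        (hmC j (Sum.inl i)) (O i) rfl (fun P1 h => hm_np j (Sum.inl i) P1 h)
        (hsys.coord i).unrP (hmU j) _
        (hasVal_valAt_of_ord (hdegL _) (hm_np j (Sum.inl i) (O i) rfl))
    · exact hEapp q.1 q.2.1 q.2.2 (m j) (hmU j) (hmC j (Sum.inr q))
        (fun P1 h => hm_np j (Sum.inr q) P1 h) _ (fun s => hCv (Sum.inr q) j s)
  have hRedVal_unique : ∀ (v : NP A Foo F0 ι) (y : FLb N) (κ κ' : kRes A),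
      RedVal G v y κ → RedVal G v y κ' → κ = κ' := by
    intro v y κ κ' h h'
    rcases v with Q | Q | ν
    · obtain ⟨_, h1⟩ := h
      obtain ⟨_, h2⟩ := h'
      exact h1.unique h2
    · obtain ⟨_, h1⟩ := h
      obtain ⟨_, h2⟩ := h'
      exact h1.unique h2
    · exact h.elim
  have hCres' : ∀ (c : CondIdxN Zx) j s, ∃ h : valAt (pt c s) (m j : FLb N) ∈ A,
      IsLocalRing.residue A ⟨valAt (pt c s) (m j : FLb N), h⟩ =
        redValAt G (Qc c) (m j) := by
    intro c j s
    obtain ⟨hA, hv⟩ := hasValue_red_nodal hS (Qc c) (hQcsm c) (m j : FLb N) (hmC j c)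
      (hm_np j c) (pt c s) (hptr c s) _ (hCv c j s)
    exact ⟨hA, hRedVal_unique _ _ _ _ hv (hCb c j)⟩
  -- vanishing of the pair `(∑ v_j red_∞ m_j, ∑ v_j red_0 m_j)` from the linear conditions
  have key : ∀ (s : S) (v : Fin (Fintype.card (CondIdxN Zx) + 1) → kRes A),
      (∀ c, ∑ j, Cbar s c j * v j = 0) → ∀ c' : CondIdxN Zx,
        VanishAt (∑ j, algebraMap (kRes A) Foo (v j) * redOoO G (m j))
          (∑ j, algebraMap (kRes A) F0 (v j) * red0O G (m j)) (Qc c') := by
    intro s v hv c'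
    have h0 := hv (e c')
    simp only [Cbar, Equiv.symm_apply_apply] at h0
    have hb := hCb c'
    rcases hQ : Qc c' with Q | Q | ν
    · show HasVal Q _ 0
      rw [hQ] at hb h0
      have h1 : HasVal Q (∑ j, algebraMap (kRes A) Foo (v j) * redOoO G (m j))
          (∑ j, v j * valAt Q (redOoO G (m j))) :=
        hasVal_sum _ _ _ fun j _ => HasVal.const_mul _ (by
          obtain ⟨_, h2⟩ := hb j
          exact h2)
      have h2 : ∑ j, v j * valAt Q (redOoO G (m j)) = 0 := by
        rw [← h0]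
        exact Finset.sum_congr rfl fun j _ => mul_comm _ _
      rwa [h2] at h1
    · show HasVal Q _ 0
      rw [hQ] at hb h0
      have h1 : HasVal Q (∑ j, algebraMap (kRes A) F0 (v j) * red0O G (m j))
          (∑ j, v j * valAt Q (red0O G (m j))) :=
        hasVal_sum _ _ _ fun j _ => HasVal.const_mul _ (by
          obtain ⟨_, h2⟩ := hb j
          exact h2)
      have h2 : ∑ j, v j * valAt Q (red0O G (m j)) = 0 := by
        rw [← h0]
        exact Finset.sum_congr rfl fun j _ => mul_comm _ _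
      rwa [h2] at h1
    · trivial
  -- the reduced kernel
  have hRKapp : ∀ (s : S) (v : Fin (Fintype.card (CondIdxN Zx) + 1) → kRes A),
      (∀ c, ∑ j, Cbar s c j * v j = 0) →
      ∃ c : kRes A,
        ∑ j, algebraMap (kRes A) Foo (v j) * redOoO G (m j) =
          algebraMap (kRes A) Foo c * ∏ a, redOoO G (u a) ∧
        ∑ j, algebraMap (kRes A) F0 (v j) * red0O G (m j) =
          algebraMap (kRes A) F0 c * ∏ a, red0O G (u a) := by
    intro s v hv
    have hvan := key s v hv
    -- a lift of the combination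
    choose vt hvt using fun j => IsLocalRing.residue_surjective (R := A) (v j)
    set M : nodalO G := ∑ j, nodalConst H (vt j) * m j with hM
    have hMoo : redOoO G M = ∑ j, algebraMap (kRes A) Foo (v j) * redOoO G (m j) := by
      rw [hM, redOoO_sum_nodalConst_mul]
      simp only [hvt]
    have hMz : red0O G M = ∑ j, algebraMap (kRes A) F0 (v j) * red0O G (m j) := by
      rw [hM, red0O_sum_nodalConst_mul]
      simp only [hvt]
    have hML : (M : FLb N) ∈ riemannRochSpace
        (Finsupp.single Poo (((∑ a, nn a : ℕ)) : ℤ) +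
          Finsupp.single P0 (((∑ a, nn a : ℕ)) : ℤ)) := by
      rw [hM, coe_sum_nodalConst_mul]
      exact sum_const_mul_mem_rr _ _ hmL
    have hglue : IsGlued G (redOoO G M) (red0O G M) :=
      isGlued_red hS hdegOo M (fun P ν hP => rg_no_pole_node hrPoo hrP0 hML P ν hP)
    rw [hMoo, hMz] at hglue
    exact hRK N A Foo F0 ι G gOo gZ pkgOo pkgZ g (fun i => G.r (O i)) hsys.inj
      (fun i => nodalCoord_isSm H (hsys.coord i)) (baseOo G O) (baseZero G O) hsys.base
      (fun i Q h => baseOo_apply_of_eq G O hsys.inj i Q h)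
      (fun Q h => baseOo_apply_of_ne G O Q h)
      (fun i Q h => baseZero_apply_of_eq G O hsys.inj i Q h)
      (fun Q h => baseZero_apply_of_ne G O Q h)
      Qoo Q0 nn (fun a => redOoO G (u a)) (fun a => red0O G (u a)) Zx hfam _ _
      (sum_const_mul_mem_rr _ _ hxbOo) (sum_const_mul_mem_rr _ _ hxbZ) hglue
      (fun i => hvan (Sum.inl i)) (fun a q hq => hvan (Sum.inr ⟨a, ⟨q, hq⟩⟩))
  have hker : ∀ s, ∀ v w : Fin (Fintype.card (CondIdxN Zx) + 1) → kRes A,
      (∀ c, ∑ j, Cbar s c j * v j = 0) → (∀ c, ∑ j, Cbar s c j * w j = 0) → v ≠ 0 →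
      ∃ a : kRes A, w = a • v := by
    intro s v w hv hw hv0
    obtain ⟨cv, hcv1, hcv2⟩ := hRKapp s v hv
    obtain ⟨cw, hcw1, hcw2⟩ := hRKapp s w hw
    have hcv0 : cv ≠ 0 := by
      rintro rfl
      rw [map_zero, zero_mul] at hcv1 hcv2
      exact hv0 (hmind v hcv1 hcv2)
    refine ⟨cw / cv, ?_⟩
    have h1 : ∑ j, algebraMap (kRes A) Foo ((w - (cw / cv) • v) j) * redOoO G (m j) = 0 := by
      have h2 : ∑ j, algebraMap (kRes A) Foo ((w - (cw / cv) • v) j) * redOoO G (m j) =
          (∑ j, algebraMap (kRes A) Foo (w j) * redOoO G (m j)) -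
            algebraMap (kRes A) Foo (cw / cv) *
              (∑ j, algebraMap (kRes A) Foo (v j) * redOoO G (m j)) := by
        rw [Finset.mul_sum, ← Finset.sum_sub_distrib]
        refine Finset.sum_congr rfl fun j _ => ?_
        simp only [Pi.sub_apply, Pi.smul_apply, smul_eq_mul, map_sub, map_mul]
        ring
      rw [h2, hcv1, hcw1, ← mul_assoc, ← map_mul, div_mul_cancel₀ cw hcv0, sub_self]
    have h1' : ∑ j, algebraMap (kRes A) F0 ((w - (cw / cv) • v) j) * red0O G (m j) = 0 := by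
      have h2 : ∑ j, algebraMap (kRes A) F0 ((w - (cw / cv) • v) j) * red0O G (m j) =
          (∑ j, algebraMap (kRes A) F0 (w j) * red0O G (m j)) -
            algebraMap (kRes A) F0 (cw / cv) *
              (∑ j, algebraMap (kRes A) F0 (v j) * red0O G (m j)) := by
        rw [Finset.mul_sum, ← Finset.sum_sub_distrib]
        refine Finset.sum_congr rfl fun j _ => ?_
        simp only [Pi.sub_apply, Pi.smul_apply, smul_eq_mul, map_sub, map_mul]
        ring
      rw [h2, hcv2, hcw2, ← mul_assoc, ← map_mul, div_mul_cancel₀ cw hcv0, sub_self]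
    have h3 := hmind _ h1 h1'
    exact sub_eq_zero.mp h3
  obtain ⟨κ, hκapp, hκA, hκker, hκunit⟩ := hCr p A hS.prime hS.liesOver S n x hx
    (Fintype.card (CondIdxN Zx)) C Cbar (fun c j => hCapp' (e.symm c) j)
    (fun c j s => hCres' (e.symm c) j s) hker
  let κA : Fin (Fintype.card (CondIdxN Zx) + 1) → S → A := fun j s => ⟨κ j s, hκA j s⟩
  -- vanishing of `F2` at the points
  have hvan : ∀ s (c' : CondIdxN Zx), HasValue (pt c' s)
      (∑ j, algebraMap Qb (FLb N) (κA j s : Qb) * (m j : FLb N)) 0 := by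
    intro s c'
    have h1 : HasVal (pt c' s) (∑ j, algebraMap Qb (FLb N) (κ j s) * (m j : FLb N))
        (∑ j, κ j s * valAt (pt c' s) (m j : FLb N)) :=
      hasVal_sum _ _ _ fun j _ => HasVal.const_mul _ (hCv c' j s)
    have h2 : ∑ j, κ j s * valAt (pt c' s) (m j : FLb N) = 0 := by
      have := hκker s (e c')
      simp only [C, Equiv.symm_apply_apply] at this
      rw [← this]
      exact Finset.sum_congr rfl fun j _ => mul_comm _ _
    rw [h2] at h1
    exact h1
  refine ⟨Poo, P0, Qoo, Q0, nn, u, Zx, α, _, m, κA, hrPoo, hrP0, huL, hfam, hα, hmU, hmL,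
    hκapp, ?_, fun s i => hvan s (Sum.inl i), ?_⟩
  · -- the reduction
    intro s
    have hκbar : ∀ c, ∑ j, Cbar s c j * IsLocalRing.residue A (κA j s) = 0 := by
      intro c
      have h1 : ∀ j, Cbar s c j = IsLocalRing.residue A
          ⟨C c j s, (hCres' (e.symm c) j s).1⟩ := fun j => ((hCres' (e.symm c) j s).2).symm
      simp only [h1, ← map_mul, ← map_sum]
      have h2 : (∑ j, (⟨C c j s, (hCres' (e.symm c) j s).1⟩ : A) * κA j s) = 0 := by
        apply Subtype.ext
        rw [AddSubmonoidClass.coe_finsetSum]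
        exact hκker s c
      rw [h2, map_zero]
    obtain ⟨γ, hγ1, hγ2⟩ := hRKapp s (fun j => IsLocalRing.residue A (κA j s)) hκbar
    refine ⟨γ, ?_, hγ1, hγ2⟩
    rintro rfl
    rw [map_zero, zero_mul] at hγ1 hγ2
    have hli := hmind (fun j => IsLocalRing.residue A (κA j s)) hγ1 hγ2
    obtain ⟨j, hj0, hjinv⟩ := hκunit s
    have hu : IsUnit (κA j s) := by
      refine IsUnit.of_mul_eq_one (⟨(κ j s)⁻¹, hjinv⟩ : A) ?_
      apply Subtype.ext
      show κ j s * (κ j s)⁻¹ = 1
      exact mul_inv_cancel₀ hj0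
    exact (nv_residue_ker (κA j s)).mp (congrFun hli j) hu
  · -- vanishing at the zeros of `u a - α a s`
    intro s a v hv P1 hP1 h0
    have h1 := hEuniq a v hv s P1 hP1 h0
    rw [h1]
    exact hvan s (Sum.inr ⟨a, ⟨v, hv⟩⟩)

end Fermat.Agent.H5.ORD
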