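/-
P-ORD (S33), block (G-B), row 1150 (ADD), helper5 (second seat for helper94):
`nodalAddApprox : F2FamilyN → ResidualDivisorN → RootApproxC → AddApproxN`,
the nodal twin of `Fermat.Agent.H94.FF.addApprox_of_blocks`.
-/
import Fermat.Agent.H5.ORD.F2FamilyN
import Fermat.Agent.H94.FF.G7Kernel
import Fermat.Agent.H47.FF.RedKernelCore

set_option autoImplicit false
set_option synthInstance.maxHeartbeats 400000
set_option maxHeartbeats 3200000
set_option linter.style.haveILetI false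
set_option linter.unusedSectionVars false

noncomputable section

open AlgebraicCurve ModularCurve Fermat.Agent.H27.ESD

namespace Fermat.Agent.H5.ORD

open Fermat.Agent.H10.FF Fermat.Agent.H72.FF Fermat.Agent.H18.ORD Fermat.Agent.H92.ORD
  Fermat.Agent.H94.FF Fermat.Agent.H94.ORD

variable {N p : ℕ} {A : ValuationSubring Qb}

/-! ### one component: the divided difference and the final ROOT-APPROX step -/

section CompFinal

variable {Fk : Type} [Field Fk] [Algebra (kRes A) Fk] {X : Type} {V : Subring (FLb N)}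
  {red : V →+* Fk} {r : Place Qb (FLb N) → X} {pt : Place (kRes A) Fk → X}
  {smooth : Place (kRes A) Fk → Prop}

theorem isUnrCoordC_red_ne_zero {Q : Place (kRes A) Fk} {P : Place Qb (FLb N)} {t : V}
    (ht : IsUnrCoordC A N V red r pt Q P t) : red t ≠ 0 := by
  intro h0
  have h1 := ht.simple
  rw [h0, Place.ord_zero] at h1
  exact zero_ne_one h1

theorem coe_ne_zero_of_red_ne_zeroC {t : V} (ht : red t ≠ 0) : (t : FLb N) ≠ 0 := by
  intro h
  apply ht
  have : t = 0 := Subtype.ext h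
  rw [this, map_zero]

/-- the inverse of a coordinate, in `V` -/
def coordInvC (hS : CompSetup N p A V red r pt smooth) (t : V) (ht : red t ≠ 0) : V :=
  ⟨((t : FLb N))⁻¹, hS.inv t ht⟩

theorem red_coordInvC (hS : CompSetup N p A V red r pt smooth) (t : V) (ht : red t ≠ 0) :
    red (coordInvC hS t ht) = (red t)⁻¹ := by
  have h1 : t * coordInvC hS t ht = 1 := by
    apply Subtype.ext
    show (t : FLb N) * ((t : FLb N))⁻¹ = 1
    exact mul_inv_cancel₀ (coe_ne_zero_of_red_ne_zeroC ht)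
  have h2 := congrArg red h1
  rw [map_mul, map_one] at h2
  exact eq_inv_of_mul_eq_one_right h2

/-- the divided difference `(m - m(O)) / t` -/
def divDiffC (hS : CompSetup N p A V red r pt smooth) (t : V) (ht : red t ≠ 0) (m : V)
    (c : A) : V :=
  (m - constC hS c) * coordInvC hS t ht

theorem coe_divDiffC (hS : CompSetup N p A V red r pt smooth) (t : V) (ht : red t ≠ 0)
    (m : V) (c : A) :
    ((divDiffC hS t ht m c : V) : FLb N) =
      ((m : FLb N) - algebraMap Qb (FLb N) (c : Qb)) * ((t : FLb N))⁻¹ := rfl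

theorem isUnrFn_divDiffC (hS : CompSetup N p A V red r pt smooth) (t : V) (ht : red t ≠ 0)
    (m : V) (c : A) (htU : IsUnrFn A N (t : FLb N)) (hmU : IsUnrFn A N (m : FLb N))
    (hc : (c : Qb) ∈ unrInt A) : IsUnrFn A N ((divDiffC hS t ht m c : V) : FLb N) := by
  intro σ hσ
  rw [coe_divDiffC, smul_mul', smul_sub, smul_inv'', htU σ hσ, hmU σ hσ,
    SemilinearAut.smul_algebraMap]
  have : SemilinearAut.baseAut (galF N σ) (c : Qb) = (c : Qb) := hc.2 σ hσ
  rw [this]

theorem divDiffC_nopole (hS : CompSetup N p A V red r pt smooth)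
    {Q : Place (kRes A) Fk} (hQ : smooth Q) {P : Place Qb (FLb N)} {t : V}
    (ht : IsUnrCoordC A N V red r pt Q P t) (m : V) (c : A)
    (hm : ∀ P1, r P1 = pt Q → 0 ≤ P1.ord (m : FLb N))
    (hc : HasValue P (m : FLb N) (c : Qb)) (P1 : Place Qb (FLb N)) (hP1 : r P1 = pt Q) :
    0 ≤ P1.ord ((divDiffC hS t (isUnrCoordC_red_ne_zero ht) m c : V) : FLb N) := by
  rw [coe_divDiffC]
  by_cases h0 : (m : FLb N) - algebraMap Qb (FLb N) (c : Qb) = 0
  · rw [h0, zero_mul, Place.ord_zero]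
  have ht0 : (t : FLb N) ≠ 0 := coe_ne_zero_of_red_ne_zeroC (isUnrCoordC_red_ne_zero ht)
  rw [P1.ord_mul h0 (inv_ne_zero ht0), P1.ord_inv]
  obtain ⟨h1, h2⟩ := hS.comp.ord_eq_of_coord Q hQ P ht.sp t ht.zero ht.simple ht.nopole
  by_cases hPP : P1 = P
  · subst hPP
    rw [h1]
    rcases hc with hc | hc
    · exact absurd (sub_eq_zero.mpr hc) h0
    · omega
  · rw [h2 P1 hP1 hPP]
    obtain ⟨b, hb⟩ := exists_hasVal (hS.degL P1) (hm P1 hP1)
    have := (hb.sub (hasVal_const P1 (c : Qb))).ord_nonneg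
    omega

theorem coe_sum_constC_mul (hS : CompSetup N p A V red r pt smooth) {d : ℕ} (κ : Fin d → A)
    (m : Fin d → V) :
    (((∑ j, constC hS (κ j) * m j : V)) : FLb N) =
      ∑ j, algebraMap Qb (FLb N) (κ j : Qb) * (m j : FLb N) := by
  rw [AddSubmonoidClass.coe_finsetSum]
  rfl

/-- **the final step on one component**: if `F2(s) = ∑ κ_j(s) m_j` vanishes at `P`, its
reduction has a DOUBLE zero at `Q`, and `F2(s) / t` vanishes at `pts s`, then the coordinate of
`pts s` is approximable. -/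
theorem finalStepC (hRA : RootApproxC) (hS : CompSetup N p A V red r pt smooth)
    {Q : Place (kRes A) Fk} (hQ : smooth Q) {P : Place Qb (FLb N)} {t : V}
    (ht : IsUnrCoordC A N V red r pt Q P t) (d : ℕ) (m : Fin d → V)
    (hmU : ∀ j, IsUnrFn A N (m j : FLb N))
    (hm_np : ∀ j P1, r P1 = pt Q → 0 ≤ P1.ord (m j : FLb N))
    (S : Type) [Finite S] (n : ℕ) (x : S → Fin n → Qb) (hx : ∀ s i, x s i ∈ A.nonunits)
    (κ : Fin d → S → A) (hκ : ∀ j, IsApprox p A x (fun s => (κ j s : Qb)))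
    (hred : ∀ s, Q.ord (red (∑ j, constC hS (κ j s) * m j)) = 2)
    (hO : ∀ s, HasValue P (∑ j, algebraMap Qb (FLb N) (κ j s : Qb) * (m j : FLb N)) 0)
    (pts : S → Place Qb (FLb N)) (τ : S → Qb) (hpts : ∀ s, r (pts s) = pt Q)
    (hτ : ∀ s, HasValue (pts s) (t : FLb N) (τ s))
    (hzero : ∀ s, HasValue (pts s)
      ((∑ j, algebraMap Qb (FLb N) (κ j s : Qb) * (m j : FLb N)) / (t : FLb N)) 0) :
    IsApprox p A x τ := by
  have hdegL := hS.degL
  have htne := isUnrCoordC_red_ne_zero ht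
  have hmO : ∀ j, HasValue P (m j : FLb N) (valAt P (m j : FLb N)) :=
    fun j => hasVal_valAt_of_ord (hdegL _) (hm_np j P ht.sp)
  have hmOR : ∀ j, valAt P (m j : FLb N) ∈ unrInt A := fun j =>
    isUnr_value_mem_unrIntC hS (m j) Q hQ P ht.sp (hm_np j) ht.unrP (hmU j) _ (hmO j)
  let mO : Fin d → A := fun j => ⟨valAt P (m j : FLb N), (hmOR j).1⟩
  let y : Fin d → V := fun j => divDiffC hS t htne (m j) (mO j)
  have hyU : ∀ j, IsUnrFn A N (y j : FLb N) :=
    fun j => isUnrFn_divDiffC hS _ _ _ _ ht.unrT (hmU j) (hmOR j)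
  have hynp : ∀ j P1, r P1 = pt Q → 0 ≤ P1.ord (y j : FLb N) :=
    fun j P1 h1 => divDiffC_nopole hS hQ ht (m j) (mO j) (hm_np j) (hmO j) P1 h1
  -- the relation `∑ κ_j mO_j = 0`
  have hrel : ∀ s, ∑ j, (κ j s : Qb) * (mO j : Qb) = 0 := by
    intro s
    have h1 : HasVal P (∑ j, algebraMap Qb (FLb N) (κ j s : Qb) * (m j : FLb N))
        (∑ j, (κ j s : Qb) * (mO j : Qb)) :=
      hasVal_sum _ _ _ (fun j _ => HasVal.const_mul _ (hmO j))
    exact h1.unique (hO s)
  -- `∑ κ_j y_j = F2 / t`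
  have hsumO : ∀ s, (∑ j, constC hS (κ j s) * y j : V) =
      (∑ j, constC hS (κ j s) * m j) * coordInvC hS t htne := by
    intro s
    apply Subtype.ext
    rw [Subring.coe_mul, coe_sum_constC_mul, coe_sum_constC_mul]
    have h2 : ∀ j, algebraMap Qb (FLb N) (κ j s : Qb) * ((y j : V) : FLb N) =
        algebraMap Qb (FLb N) (κ j s : Qb) * (m j : FLb N) * ((t : FLb N))⁻¹ -
          algebraMap Qb (FLb N) ((κ j s : Qb) * (mO j : Qb)) * ((t : FLb N))⁻¹ := by
      intro j
      show algebraMap Qb (FLb N) (κ j s : Qb) *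
        (((m j : FLb N) - algebraMap Qb (FLb N) (mO j : Qb)) * ((t : FLb N))⁻¹) = _
      rw [map_mul]
      ring
    rw [Finset.sum_congr rfl (fun j _ => h2 j), Finset.sum_sub_distrib, ← Finset.sum_mul,
      ← Finset.sum_mul, ← map_sum, hrel s, map_zero, zero_mul, sub_zero]
    rfl
  refine hRA N p A Fk X V red r pt smooth hS Q hQ P t ht d y hyU hynp S n x hx κ hκ
    ?_ pts τ hpts hτ ?_
  · intro s
    rw [hsumO s, map_mul, red_coordInvC]
    have hF0 : red (∑ j, constC hS (κ j s) * m j) ≠ 0 := by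
      intro h0
      have := hred s
      rw [h0, Place.ord_zero] at this
      omega
    rw [Q.ord_mul hF0 (inv_ne_zero htne), hred s, Place.ord_inv, ht.simple]
    norm_num
  · intro s
    rw [hsumO s]
    have : (((∑ j, constC hS (κ j s) * m j) * coordInvC hS t htne : V) : FLb N) =
        (∑ j, algebraMap Qb (FLb N) (κ j s : Qb) * (m j : FLb N)) / (t : FLb N) := by
      rw [Subring.coe_mul, coe_sum_constC_mul, div_eq_mul_inv]
      rfl
    rw [this]
    exact hzero s

end CompFinal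

/-! ### both components -/

section Nodal

variable {Foo F0 : Type} [Field Foo] [Field F0]
  [Algebra (kRes A) Foo] [Algebra (kRes A) F0] {ι : Type} {G : NodalData N A Foo F0 ι} {g : ℕ}
  {Qs : Fin g → NP A Foo F0 ι} {Qoo : Place (kRes A) Foo} {Q0 : Place (kRes A) F0}
  {nn : Fin g ⊕ Fin g → ℕ} {fo : Fin g ⊕ Fin g → Foo} {fz : Fin g ⊕ Fin g → F0}
  {Zx : Fin g ⊕ Fin g → Finset (NP A Foo F0 ι)}

theorem auxFamilyN_ordPair_at (hfam : IsAuxFamilyN G Qs Qoo Q0 nn fo fz Zx)
    (hQs : Function.Injective Qs) (hsm : ∀ i, IsSm G (Qs i)) (i : Fin g)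
    (a : Fin g ⊕ Fin g) :
    ordPair (fo a) (fz a) (Qs i) = if jproj a = i then 1 else 0 := by
  split_ifs with h
  · rw [← h]
    exact hfam.zero_main a
  · exact hfam.zero_else a (Qs i) (hsm i) (hfam.qinf_ne i).1 (hfam.qinf_ne i).2
      (fun h' => h (hQs h').symm) (hfam.qs_notMem a i)

theorem sum_ite_jproj {g : ℕ} (i : Fin g) :
    (∑ a : Fin g ⊕ Fin g, (if jproj a = i then (1 : ℤ) else 0)) = 2 := by
  rw [Fintype.sum_sum_type]
  have h1 : (∑ a₁ : Fin g, (if jproj (Sum.inl a₁ : Fin g ⊕ Fin g) = i then (1 : ℤ) else 0)) =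
      1 := by
    rw [Finset.sum_eq_single i]
    · simp [jproj]
    · intro b _ hb
      simp [jproj, hb]
    · intro h
      exact absurd (Finset.mem_univ i) h
  have h2 : (∑ a₁ : Fin g, (if jproj (Sum.inr a₁ : Fin g ⊕ Fin g) = i then (1 : ℤ) else 0)) =
      1 := by
    rw [Finset.sum_eq_single i]
    · simp [jproj]
    · intro b _ hb
      simp [jproj, hb]
    · intro h
      exact absurd (Finset.mem_univ i) h
  rw [h1, h2]
  norm_num

theorem auxFamilyN_ord_prod_oo (hfam : IsAuxFamilyN G Qs Qoo Q0 nn fo fz Zx)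
    (hQs : Function.Injective Qs) (hsm : ∀ i, IsSm G (Qs i)) (i : Fin g)
    (Q : Place (kRes A) Foo) (hQ : Qs i = NPt.oo Q) : Q.ord (∏ a, fo a) = 2 := by
  rw [Fermat.Agent.H47.FF.ord_finset_prod _ _ _ (fun a _ => (hfam.ne_zero a).1)]
  have h1 : ∀ a, Q.ord (fo a) = if jproj a = i then 1 else 0 := by
    intro a
    have := auxFamilyN_ordPair_at hfam hQs hsm i a
    rw [hQ] at this
    exact this
  simp only [h1]
  exact sum_ite_jproj i

theorem auxFamilyN_ord_prod_zero (hfam : IsAuxFamilyN G Qs Qoo Q0 nn fo fz Zx)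
    (hQs : Function.Injective Qs) (hsm : ∀ i, IsSm G (Qs i)) (i : Fin g)
    (Q : Place (kRes A) F0) (hQ : Qs i = NPt.zero Q) : Q.ord (∏ a, fz a) = 2 := by
  rw [Fermat.Agent.H47.FF.ord_finset_prod _ _ _ (fun a _ => (hfam.ne_zero a).2)]
  have h1 : ∀ a, Q.ord (fz a) = if jproj a = i then 1 else 0 := by
    intro a
    have := auxFamilyN_ordPair_at hfam hQs hsm i a
    rw [hQ] at this
    exact this
  simp only [h1]
  exact sum_ite_jproj i

/-- the coordinate of a point of the disc of `O i` is a nonunit -/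
theorem nodalCoord_value_nonunit (hS : NodalSetup N p A G g) {P : Place Qb (FLb N)}
    {t : FLb N} (hc : IsNodalUnrCoord G P t) (P1 : Place Qb (FLb N))
    (hP1 : G.r P1 = G.r P) (c : Qb) (h : HasValue P1 t c) : c ∈ A.nonunits := by
  rcases hv : G.r P with Q | Q | ν
  · obtain ⟨ht, hcc⟩ := nodalCoordOo hc hv
    exact IsUnrCoordC.value_nonunit (compSetupOo hS) (hS.rv.r_oo _ _ hv) hcc P1
      (hP1.trans hv) c h
  · obtain ⟨ht, hcc⟩ := nodalCoordZero hc hv
    exact IsUnrCoordC.value_nonunit (compSetupZero hS) (hS.rv.r_zero _ _ hv) hcc P1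
      (hP1.trans hv) c h
  · exact absurd hv (hc.smooth ν)

/-- **[ADD]** second half of the nodal two-step: the group law in nodal Jacobi coordinates is
approximable. -/
theorem nodalAddApprox (hF2 : F2FamilyN) (hDiv : ResidualDivisorN) (hRA : RootApproxC) :
    AddApproxN := by
  intro N p A Foo F0 _ _ _ _ ι G g hS hPkg O t hsys J1 z hz S hSJ M
  classical
  have H := hS.rv
  have hdegL := hS.pkgL.deg_one
  -- the points of the classes in `S`
  have hP : ∀ c : ↥S, ∃ P : Fin g → Place Qb (FLb N), IsNodalRep G O (c : JZero N) P :=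
    fun c => (hz.mem_iff c).mp (hSJ c c.2)
  choose Pc hrep using hP
  have hPr : ∀ (c : ↥S) i, G.r (Pc c i) = G.r (O i) := by
    intro c i
    obtain ⟨D, h1, -, -⟩ := hrep c
    exact h1 i
  have hzval : ∀ (c : ↥S) (i : Fin g), HasValue (Pc c i) (t i) (z c i) :=
    fun c i => hz.value c (Pc c) (hrep c) i
  have hsm : ∀ i, IsSm G (G.r (O i)) := fun i => nodalCoord_isSm H (hsys.coord i)
  -- parameters
  let x : ↥S × ↥S → Fin (g + g) → Qb :=
    fun s a => Sum.elim (z s.1) (z s.2) (finSumFinEquiv.symm a)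
  have hxsum : ∀ (s : ↥S × ↥S) (a : Fin g ⊕ Fin g),
      Sum.elim (z s.1) (z s.2) a ∈ A.nonunits := by
    intro s a
    rcases a with i | i
    · exact nodalCoord_value_nonunit hS (hsys.coord i) (Pc s.1 i) (hPr s.1 i) _ (hzval s.1 i)
    · exact nodalCoord_value_nonunit hS (hsys.coord i) (Pc s.2 i) (hPr s.2 i) _ (hzval s.2 i)
  have hx : ∀ s a, x s a ∈ A.nonunits := fun s a => hxsum s _
  have main : ∀ i : Fin g,
      IsApprox p A x (fun s => z ((s.1 : JZero N) + (s.2 : JZero N)) i) := by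
    intro i
    have hg : 0 < g := i.pos
    let Pt : ↥S × ↥S → Fin g ⊕ Fin g → Place Qb (FLb N) :=
      fun s => Sum.elim (Pc s.1) (Pc s.2)
    let τ : Fin g ⊕ Fin g → ↥S × ↥S → Qb := fun a s => Sum.elim (z s.1) (z s.2) a
    have hPt : ∀ s a, G.r (Pt s a) = G.r (O (jproj a)) := by
      intro s a
      rcases a with i | i
      · exact hPr s.1 i
      · exact hPr s.2 i
    have hτv : ∀ s a, HasValue (Pt s a) (t (jproj a)) (τ a s) := by
      intro s a
      rcases a with i | i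
      · exact hzval s.1 i
      · exact hzval s.2 i
    have hτ : ∀ a, IsApprox p A x (τ a) := by
      intro a
      have h := isApprox_var' (ℓ := p) (A := A) (x := x) (finSumFinEquiv a)
      have e : (fun s => x s (finSumFinEquiv a)) = τ a := by
        funext s
        show Sum.elim (z s.1) (z s.2) (finSumFinEquiv.symm (finSumFinEquiv a)) = _
        rw [Equiv.symm_apply_apply]
      rwa [e] at h
    obtain ⟨Poo, P0, Qoo, Q0, nn, u, Zx, α, d, m, κ, hrPoo, hrP0, huL, hfam, hα, hmU, hmL,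
        hκ, hγ, hO, hZ⟩ :=
      hF2 N p A Foo F0 ι G g hS hPkg O t hsys hg (↥S × ↥S) (g + g) x hx Pt τ hPt hτv hτ
    -- `F2`
    let F2 : ↥S × ↥S → nodalO G := fun s => ∑ j, nodalConst H (κ j s) * m j
    have hF2coe : ∀ s, ((F2 s : nodalO G) : FLb N) =
        ∑ j, algebraMap Qb (FLb N) (κ j s : Qb) * (m j : FLb N) :=
      fun s => coe_sum_nodalConst_mul H _ _
    have hF2L : ∀ s, ((F2 s : nodalO G) : FLb N) ∈
        riemannRochSpace (Finsupp.single Poo (((∑ a, nn a : ℕ)) : ℤ) +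
          Finsupp.single P0 (((∑ a, nn a : ℕ)) : ℤ)) := by
      intro s
      rw [hF2coe]
      exact sum_const_mul_mem_rr _ _ hmL
    have hγ' : ∀ s, ∃ γ : kRes A, γ ≠ 0 ∧
        redOoO G (F2 s) = algebraMap (kRes A) Foo γ * ∏ a, redOoO G (u a) ∧
        red0O G (F2 s) = algebraMap (kRes A) F0 γ * ∏ a, red0O G (u a) := by
      intro s
      obtain ⟨γ, hγ0, h1, h2⟩ := hγ s
      refine ⟨γ, hγ0, ?_, ?_⟩
      · rw [← h1]
        exact redOoO_sum_nodalConst_mul H _ _
      · rw [← h2]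
        exact red0O_sum_nodalConst_mul H _ _
    have hdiv := fun s => hDiv N p A Foo F0 ι G g hS O t hsys Poo P0 Qoo Q0 nn u Zx hrPoo hrP0
      huL hfam (Pt s) (fun a => α a s) (hPt s) (hα s) (F2 s) (hF2L s) (hγ' s)
      (fun i => by rw [hF2coe]; exact hO s i)
      (fun a v hv P1 hP1 h0 => by rw [hF2coe]; exact hZ s a v hv P1 hP1 h0)
    choose P2 hP2r hP2v w hw0 hwdiv using hdiv
    have hz2 : ∀ s : ↥S × ↥S,
        HasValue (P2 s i) (t i) (z ((s.1 : JZero N) + (s.2 : JZero N)) i) := by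
      intro s
      obtain ⟨D2, hD2⟩ := exists_degZero_sum_sub hdegL O (P2 s)
      obtain ⟨D, -, hD, hcD⟩ := hrep s.1
      obtain ⟨D', -, hD', hcD'⟩ := hrep s.2
      have hcls := pic0_mk_add_of_principal O (Pc s.1) (Pc s.2) (P2 s) (w s) (hw0 s)
        (hwdiv s) D D' D2 hD hD' hD2
      rw [← hcD, ← hcD'] at hcls
      exact hz.value _ (P2 s) ⟨D2, hP2r s, hD2, hcls.symm⟩ i
    have hzero : ∀ s, HasValue (P2 s i)
        ((∑ j, algebraMap Qb (FLb N) (κ j s : Qb) * (m j : FLb N)) / t i) 0 := by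
      intro s
      have := hP2v s i
      rwa [hF2coe] at this
    -- final step
    have hti := hsys.coord i
    have hne := hfam.qinf_ne i
    have hm_np : ∀ j P1, G.r P1 = G.r (O i) → 0 ≤ P1.ord (m j : FLb N) := by
      intro j P1 h1
      refine ord_nonneg_of_mem_rr_two (hmL j) ?_ ?_
      · rintro rfl
        exact hne.1 (h1.symm.trans hrPoo)
      · rintro rfl
        exact hne.2 (h1.symm.trans hrP0)
    rcases hv : G.r (O i) with Q | Q | ν
    · obtain ⟨ht, hcc⟩ := nodalCoordOo hti hv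
      have hQsm : Q ∉ Set.range G.nOo := H.r_oo _ _ hv
      refine finalStepC hRA (compSetupOo hS) hQsm hcc d (fun j => ⟨(m j : FLb N), (m j).2.1⟩)
        hmU (fun j P1 h1 => hm_np j P1 (h1.trans hv.symm)) (↥S × ↥S) (g + g) x hx κ hκ ?_
        (fun s => hO s i) (fun s => P2 s i) _ (fun s => (hP2r s i).trans hv) hz2 hzero
      intro s
      have hsum : G.redOo (∑ j, constC (compSetupOo hS) (κ j s) *
          (⟨(m j : FLb N), (m j).2.1⟩ : G.Voo)) = redOoO G (F2 s) := by
        rw [map_sum, redOoO_sum_nodalConst_mul]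
        refine Finset.sum_congr rfl fun j _ => ?_
        rw [map_mul, red_constC]
        rfl
      rw [hsum]
      obtain ⟨γ, hγ0, h1, -⟩ := hγ' s
      have hprod0 : (∏ a, redOoO G (u a)) ≠ 0 :=
        Finset.prod_ne_zero_iff.mpr fun a _ => (hfam.ne_zero a).1
      have hγF : algebraMap (kRes A) Foo γ ≠ 0 :=
        (map_ne_zero (algebraMap (kRes A) Foo)).mpr hγ0
      rw [h1, Q.ord_mul hγF hprod0, Fermat.Agent.H23.ord_algebraMap,
        auxFamilyN_ord_prod_oo hfam hsys.inj hsm i Q hv]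
      norm_num
    · obtain ⟨ht, hcc⟩ := nodalCoordZero hti hv
      have hQsm : Q ∉ Set.range G.n0 := H.r_zero _ _ hv
      refine finalStepC hRA (compSetupZero hS) hQsm hcc d
        (fun j => ⟨(m j : FLb N), (m j).2.2⟩)
        hmU (fun j P1 h1 => hm_np j P1 (h1.trans hv.symm)) (↥S × ↥S) (g + g) x hx κ hκ ?_
        (fun s => hO s i) (fun s => P2 s i) _ (fun s => (hP2r s i).trans hv) hz2 hzero
      intro s
      have hsum : G.red0 (∑ j, constC (compSetupZero hS) (κ j s) *
          (⟨(m j : FLb N), (m j).2.2⟩ : G.V0)) = red0O G (F2 s) := by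
        rw [map_sum, red0O_sum_nodalConst_mul]
        refine Finset.sum_congr rfl fun j _ => ?_
        rw [map_mul, red_constC]
        rfl
      rw [hsum]
      obtain ⟨γ, hγ0, -, h1⟩ := hγ' s
      have hprod0 : (∏ a, red0O G (u a)) ≠ 0 :=
        Finset.prod_ne_zero_iff.mpr fun a _ => (hfam.ne_zero a).2
      have hγF : algebraMap (kRes A) F0 γ ≠ 0 :=
        (map_ne_zero (algebraMap (kRes A) F0)).mpr hγ0
      rw [h1, Q.ord_mul hγF hprod0, Fermat.Agent.H23.ord_algebraMap,
        auxFamilyN_ord_prod_zero hfam hsys.inj hsm i Q hv]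
      norm_num
    · exact absurd hv (hti.smooth ν)
  -- conclusion
  choose G' hG' hG'e using fun i => main i M
  choose Gp hGp hGpe using fun i => exists_rename_sum (G' i) (hG' i)
  refine ⟨Gp, hGp, fun c hc c' hc' i => ?_⟩
  obtain ⟨a, ha, h⟩ := hG'e i (⟨c, hc⟩, ⟨c', hc'⟩)
  refine ⟨a, ha, ?_⟩
  rw [hGpe i]
  exact h

end Nodal

end Fermat.Agent.H5.ORD
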