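/-
helper5, P-ORD block (G-B): UNCONDITIONAL final assembly

  `addApproxN_final : Fermat.Agent.H94.ORD.AddApproxN`

from the landed rows 1138-1150 of (G-B):
  taylorRedC (helper32), taylorApproxC (helper37), rootApproxC (helper26), discZeroC (helper42),
  unrCoordN (helper69), genericSectionN (helper39), auxSectionsN (helper90), liftBasisN (helper29),
  redKernelN (helper83), residualDivisorN (helper75), cramer (helper26, P-FF),
  movingZerosN / f2FamilyN / nodalAddApprox (helper5).
-/
import Fermat.Agent.H5.ORD.AddApproxN
import Fermat.Agent.H5.ORD.F2FamilyN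
import Fermat.Agent.H5.ORD.MovingN
import Fermat.Agent.H32.ORD.TaylorC
import Fermat.Agent.H37.ORD.TaylorApproxC
import Fermat.Agent.H26.ORD.RootApproxC
import Fermat.Agent.H42.ORD.DiscZeroC
import Fermat.Agent.H69.ORD.NodalCoordN
import Fermat.Agent.H39.ORD.GenericSectionN
import Fermat.Agent.H90.ORD.AuxSectionsN
import Fermat.Agent.H29.ORD.LiftBasisN
import Fermat.Agent.H83.ORD.RedKernelN
import Fermat.Agent.H75.ORD.ResDivN
import Fermat.Agent.H26.FF.TaylorApprox

namespace Fermat.Agent.H5.ORD

open Fermat.Agent.H94.ORD

/-- (G-B), rows C1-C3: the three disc statements, unconditional. -/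
theorem taylorRedC_final : TaylorRedC := Fermat.Agent.H32.ORD.taylorRedC

theorem taylorApproxC_final : TaylorApproxC :=
  Fermat.Agent.H37.ORD.taylorApproxC taylorRedC_final

theorem rootApproxC_final : RootApproxC :=
  Fermat.Agent.H26.ORD.rootApproxC taylorRedC_final

/-- (G-B), row N7: moving zeros, unconditional. -/
theorem movingZerosN_final : MovingZerosN :=
  movingZerosN taylorApproxC_final rootApproxC_final Fermat.Agent.H42.ORD.discZeroC
    Fermat.Agent.H69.ORD.unrCoordN

/-- (G-B), row N8: the F2 family, unconditional. -/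
theorem f2FamilyN_final : F2FamilyN :=
  f2FamilyN (Fermat.Agent.H90.ORD.auxSectionsN Fermat.Agent.H39.ORD.genericSectionN)
    Fermat.Agent.H29.ORD.liftBasisN movingZerosN_final Fermat.Agent.H83.ORD.redKernelN
    Fermat.Agent.H26.FF.cramer

/-- **(G-B) final**: the addition approximation on the nodal fibre, UNCONDITIONAL. -/
theorem addApproxN_final : AddApproxN :=
  nodalAddApprox f2FamilyN_final Fermat.Agent.H75.ORD.residualDivisorN rootApproxC_final

end Fermat.Agent.H5.ORD
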