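/-
helper5, P-ORD block B1-ANCHOR, step [CRT] (findings #569, #581), part 1:
THE MAXIMAL IDEALS OF A CHART OVER `𝔪_A` ARE CENTRES OF PLACES.

Generic part (`K` algebraically closed of characteristic `0`, `A` a valuation subring of `K` with
algebraically closed residue field, `B(y) = scChart A y` the integral closure of `A[y]` in `F`):

* `crtm_maximal_poly` : a maximal ideal of `k[X]`, `k` algebraically closed, contains some
  `X - κ`;
* `crtm_exists_const` : a maximal ideal `S` of `B(y)` containing `𝔪_A` contains `y - a` for some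
  `a ∈ A`;
* `crtm_exists_place` : such an `S` is the centre of a place `P` of `F / K` with `y(P) = a`
  (helper39's `sc_exists_place`).

Instance for the charts of `X₀(N)` (helper84's `nmChart`, `nmMax`, `nmY`):

* `crtm_centre_j` : a maximal ideal `S` of `B̄(j)` containing `𝔪_A` is `B̄(j) ∩ 𝔐_P` for a place `P`
  with `j(P) ∈ A` (so `nmY A P = j`);
* `crtm_centre_jinv` : a maximal ideal `S` of `B̄(j⁻¹)` containing `𝔪_A` is `B̄(j⁻¹) ∩ 𝔐_P` for a
  place `P` with `j⁻¹(P) ∈ A`.
-/
import Fermat.Agent.H2.ORD.NmSurj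

set_option autoImplicit false
set_option linter.unusedSectionVars false
set_option linter.style.haveILetI false
set_option synthInstance.maxHeartbeats 400000

noncomputable section

open AlgebraicCurve ModularCurve IntermediateField Polynomial

namespace Fermat.Agent.H5.ORD

open Fermat.Agent.H72.FF Fermat.Agent.H18.ORD Fermat.Agent.H66 Fermat.Agent.H27.ESD
  Fermat.Agent.H84.ORD Fermat.Agent.H39.ORD Fermat.Agent.H2.ORD

/-! ### Maximal ideals of `k[X]` -/

/-- a maximal ideal of `k[X]`, `k` algebraically closed, contains some `X - κ` -/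
theorem crtm_maximal_poly {k : Type*} [Field k] [IsAlgClosed k] (m : Ideal (Polynomial k))
    [hm : m.IsMaximal] : ∃ κ : k, (X - C κ : Polynomial k) ∈ m := by
  have key : ∀ n : ℕ, ∀ g : Polynomial k, g ∈ m → g ≠ 0 → g.natDegree = n →
      ∃ κ : k, (X - C κ : Polynomial k) ∈ m := by
    intro n
    induction n with
    | zero =>
      intro g hg hg0 hdeg
      exfalso
      have hgC : g = C (g.coeff 0) := Polynomial.eq_C_of_natDegree_eq_zero hdeg
      have hc : g.coeff 0 ≠ 0 := fun h => hg0 (by rw [hgC, h, map_zero])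
      apply hm.ne_top
      rw [Ideal.eq_top_iff_one]
      have h1 : C (g.coeff 0)⁻¹ * g ∈ m := m.mul_mem_left _ hg
      rw [hgC, ← C_mul, coeff_C_zero, inv_mul_cancel₀ hc, C_1] at h1
      exact h1
    | succ n ih =>
      intro g hg hg0 hdeg
      have hd : g.degree ≠ 0 := by
        rw [Polynomial.degree_eq_natDegree hg0, hdeg]
        exact_mod_cast Nat.succ_ne_zero n
      obtain ⟨κ, hκ⟩ := IsAlgClosed.exists_root g hd
      have hdiv : (X - C κ) * (g /ₘ (X - C κ)) = g :=
        Polynomial.mul_divByMonic_eq_iff_isRoot.mpr hκ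
      have hq0 : g /ₘ (X - C κ) ≠ 0 := by
        intro h0
        rw [h0, mul_zero] at hdiv
        exact hg0 hdiv.symm
      have hmem : (X - C κ) * (g /ₘ (X - C κ)) ∈ m := by rw [hdiv]; exact hg
      rcases hm.isPrime.mem_or_mem hmem with h | h
      · exact ⟨κ, h⟩
      · refine ih _ h hq0 ?_
        have h1 := congrArg Polynomial.natDegree hdiv
        rw [Polynomial.natDegree_mul (Polynomial.X_sub_C_ne_zero κ) hq0,
          Polynomial.natDegree_X_sub_C, hdeg] at h1
        omega
  have hne : m ≠ ⊥ := by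
    intro h
    apply Polynomial.not_isField k
    subst h
    exact Ring.isField_iff_maximal_bot.2 hm
  obtain ⟨g, hg, hg0⟩ := Submodule.exists_mem_ne_zero_of_ne_bot hne
  exact key _ g hg hg0 rfl

/-! ### The generic chart -/

section Generic

variable {K F : Type} [Field K] [Field F] [Algebra K F]

/-- a maximal ideal of the chart `B(y)` containing `𝔪_A` contains `y - a` for some `a ∈ A`
(the residue field of `A` is algebraically closed) -/
theorem crtm_exists_const (A : ValuationSubring K) [IsAlgClosed (IsLocalRing.ResidueField A)]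
    (y : F) {S : Ideal ↥(scChart A y)} (hS : S.IsMaximal)
    (hm : ∀ (c : K), c ∈ A.nonunits → ∀ h : algebraMap K F c ∈ scChart A y,
      (⟨_, h⟩ : ↥(scChart A y)) ∈ S) :
    ∃ a : ↥A, scHomT A y (X - C a) ∈ S := by
  classical
  haveI := hS
  have hint : (scHomT A y).IsIntegral := fun t => scHomT_isIntegralElem A y t
  have h𝔫 : (S.comap (scHomT A y)).IsMaximal :=
    Ideal.isMaximal_comap_of_isIntegral_of_isMaximal' (scHomT A y) hint S
  set 𝔫 : Ideal (Polynomial ↥A) := S.comap (scHomT A y) with h𝔫def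
  let res : Polynomial ↥A →+* Polynomial (IsLocalRing.ResidueField A) :=
    Polynomial.mapRingHom (IsLocalRing.residue A)
  have hres : Function.Surjective res :=
    Polynomial.map_surjective _ IsLocalRing.residue_surjective
  have hker : RingHom.ker res ≤ 𝔫 := by
    rw [Polynomial.ker_mapRingHom, Ideal.map_le_iff_le_comap]
    intro c hc
    rw [RingHom.mem_ker, IsLocalRing.residue_eq_zero_iff] at hc
    have hc' : (c : K) ∈ A.nonunits := (ValuationSubring.coe_mem_nonunits_iff).2 hc
    show scHomT A y (C c) ∈ S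
    have hmem : algebraMap K F (c : K) ∈ scChart A y := by
      rw [← scHom_C]
      exact scHom_mem_scChart A y _
    have := hm c hc' hmem
    have e : scHomT A y (C c) = ⟨_, hmem⟩ := by
      apply Subtype.ext
      rw [coe_scHomT, scHom_C]
    rw [e]
    exact this
  have hcm : (𝔫.map res).comap res = 𝔫 := by
    rw [Ideal.comap_map_of_surjective res hres]
    exact sup_eq_left.2 hker
  rcases Ideal.map_eq_top_or_isMaximal_of_surjective res hres h𝔫 with htop | hmax
  · exfalso
    rw [htop, Ideal.comap_top] at hcm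
    exact h𝔫.ne_top hcm.symm
  · obtain ⟨κ, hκ⟩ := crtm_maximal_poly (𝔫.map res)
    obtain ⟨a, rfl⟩ := IsLocalRing.residue_surjective κ
    refine ⟨a, ?_⟩
    have h1 : (X - C a : Polynomial ↥A) ∈ (𝔫.map res).comap res := by
      show res (X - C a) ∈ 𝔫.map res
      have e : res (X - C a) = X - C (IsLocalRing.residue A a) := by
        simp [res]
      rw [e]
      exact hκ
    rw [hcm] at h1
    exact h1

/-- **a maximal ideal of the chart over `𝔪_A` is the centre of a place** -/
theorem crtm_exists_place [IsAlgClosed K] [CharZero K] (A : ValuationSubring K)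
    [IsAlgClosed (IsLocalRing.ResidueField A)] {y : F}
    (hy : Transcendental K y) (hfin : FiniteDimensional K⟮y⟯ F)
    {S : Ideal ↥(scChart A y)} (hS : S.IsMaximal)
    (hm : ∀ (c : K), c ∈ A.nonunits → ∀ h : algebraMap K F c ∈ scChart A y,
      (⟨_, h⟩ : ↥(scChart A y)) ∈ S) :
    ∃ (a : ↥A) (P : Place K F), 1 ≤ P.ord (y - algebraMap K F (a : K)) ∧
      ∀ f : ↥(scChart A y), ∀ c ∈ A.nonunits,
        ((f : F) = algebraMap K F c ∨ 1 ≤ P.ord ((f : F) - algebraMap K F c)) → f ∈ S := by
  obtain ⟨a, ha⟩ := crtm_exists_const A y hS hm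
  haveI : S.IsPrime := hS.isPrime
  obtain ⟨P, hP1, hP2⟩ := sc_exists_place A hy hfin a.2 S hm (by
    intro h
    have e : scHomT A y (X - C a) = ⟨_, h⟩ := by
      apply Subtype.ext
      rw [coe_scHomT, map_sub, scHom_X, scHom_C]
    rw [← e]
    exact ha)
  exact ⟨a, P, hP1, hP2⟩

end Generic

/-! ### The charts of `X₀(N)` -/

section Nm

variable {N : ℕ} [NeZero N] (A : ValuationSubring Qb) [IsAlgClosed (kRes A)]

/-- a maximal ideal of the chart `B̄(y)` over `𝔪_A` (`y` transcendental, `F / ℚ̄(y)` finite) is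
`B̄(y) ∩ 𝔐_P` for a place `P` with `y(P) ∈ A` -/
theorem crtm_centre {y : FLb N} (hy : Transcendental Qb y)
    (hfin : FiniteDimensional Qb⟮y⟯ (FLb N)) (hdeg : ∀ P : Place Qb (FLb N), P.deg = 1)
    {S : Ideal ↥(nmChart N A y)} (hS : S.IsMaximal)
    (hm : ∀ (c : Qb) (hc : c ∈ A.nonunits),
      (⟨algebraMap Qb (FLb N) c,
        algebraMap_mem_nmChart A y (ValuationSubring.nonunits_subset hc)⟩ :
          ↥(nmChart N A y)) ∈ S) :
    ∃ P : Place Qb (FLb N), y ∈ nmInt A P ∧
      ∀ f : ↥(nmChart N A y), f ∈ S ↔ (f : FLb N) ∈ nmMax A P := by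
  obtain ⟨a, P, hP1, hP2⟩ := crtm_exists_place (K := Qb) (F := FLb N) A hy hfin
    (S := S) (hS := hS) (fun c hc h => hm c hc)
  have hyP : y ∈ nmInt A P := ⟨(a : Qb), a.2, Or.inr hP1⟩
  replace hP2 : ∀ f : ↥(nmChart N A y), ∀ c ∈ A.nonunits, HasValue P (f : FLb N) c → f ∈ S :=
    hP2
  refine ⟨P, hyP, fun f => ⟨fun hf => ?_, ?_⟩⟩
  · -- `f ∈ S` has a value in `𝔪_A`
    have hfW : (f : FLb N) ∈ nmComp A P (hdeg P) :=
      nmChart_le A (nmComp A P (hdeg P)) (fun _ hc => algebraMap_mem_nmComp A P (hdeg P) hc)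
        hyP f.2
    obtain ⟨c, hcA, hcv⟩ := hfW
    by_cases hcu : c ∈ A.nonunits
    · exact ⟨c, hcu, hcv⟩
    · exfalso
      -- `f - c ∈ S`, so the unit `c` lies in `S`
      have hc0 : c ≠ 0 := by
        intro h0
        apply hcu
        rw [h0]
        exact (ValuationSubring.mem_nonunits_iff _).2 (by simp)
      have hci : c⁻¹ ∈ A := by
        by_contra hci
        apply hcu
        rw [ValuationSubring.mem_nonunits_iff_or]
        exact Or.inr hci
      have hcB : algebraMap Qb (FLb N) c ∈ nmChart N A y := algebraMap_mem_nmChart A y hcA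
      have hciB : algebraMap Qb (FLb N) c⁻¹ ∈ nmChart N A y := algebraMap_mem_nmChart A y hci
      have h1 : f - ⟨_, hcB⟩ ∈ S := by
        refine hP2 (f - ⟨_, hcB⟩) 0 ((ValuationSubring.mem_nonunits_iff _).2 (by simp)) ?_
        have := nm_hasValue_sub P hcv (nm_hasValue_const P c)
        rw [sub_self] at this
        exact this
      have h2 : (⟨_, hcB⟩ : ↥(nmChart N A y)) ∈ S := by
        have := S.sub_mem hf h1
        rwa [sub_sub_cancel] at this
      apply hS.ne_top
      rw [Ideal.eq_top_iff_one]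
      have h3 := S.mul_mem_left ⟨_, hciB⟩ h2
      have e : (⟨_, hciB⟩ : ↥(nmChart N A y)) * ⟨_, hcB⟩ = 1 := by
        apply Subtype.ext
        show algebraMap Qb (FLb N) c⁻¹ * algebraMap Qb (FLb N) c = 1
        rw [← map_mul, inv_mul_cancel₀ hc0, map_one]
      rwa [e] at h3
  · rintro ⟨c, hc, hcv⟩
    exact hP2 f c hc hcv

end Nm

end Fermat.Agent.H5.ORD

end
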