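/-
helper5, P-ORD block B1-ANCHOR, step [CRT] (findings #569, #581), part 2:

  `nmCrt : NmTotIdealStatement M p → NmDvrOoStatement M p → NmDvrZeroStatement M p →
      NmCrossStatement M p → NmCrtStatement M p`

**[CRT], chart `j`** for the nodal data `nmG` of `X₀(M p)` : a glued pair `(a, b)` of functions on
the two components, regular wherever the reduction of `j` is regular, is the pair of reductions
of some `f ∈ B̄(j)`.

Proof (local-global, no noetherian hypothesis).  `I = {s ∈ B̄(j) | s (a, b) ∈ (red_∞, red_0)(B̄(j))}`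
is an ideal of `B̄(j)` containing `𝔪_A`.  A maximal ideal `S ⊇ I` is the centre of a place `P` with
`j(P) ∈ A` (`crtm_centre`, from helper39's going-down + Chevalley).  By [TOTI] the centre lies on
`C_∞` or on `C_0`:
* on exactly one component (say `C_∞`) : [DVR] gives `a = red_∞ f / red_∞ s`, `s ∉ S`, and
  `¬ NmIdealZero` gives `e ∉ S` with `red_0 e = 0` : `s e ∈ I`, witness `f e`;
* on both (a node) : [XY] gives `X, Y` with `red_∞ X = 0 = red_0 Y`, `red_∞ Y` and `red_0 X`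
  uniformisers of the two branches; `a ≡ κ ≡ b` at the branches (glued), so by [DVR]
  `(a - κ) / red_∞ Y = red_∞ f₁ / red_∞ s₁`, `(b - κ) / red_0 X = red_0 f₂ / red_0 s₂` and
  `s₁ s₂ ∈ I`, witness `c s₁ s₂ + s₂ Y f₁ + s₁ X f₂` (`c` a lift of `κ`).
In both cases `I ⊄ S` : contradiction, so `1 ∈ I`.
-/
import Fermat.Agent.H5.ORD.NmCrtMax
import Fermat.Agent.H37.ORD.AnchorNmDefs

set_option autoImplicit false
set_option linter.unusedSectionVars false
set_option linter.unusedVariables false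
set_option linter.style.haveILetI false
set_option synthInstance.maxHeartbeats 400000
set_option maxHeartbeats 1600000

noncomputable section

open AlgebraicCurve ModularCurve IntermediateField

namespace Fermat.Agent.H5.ORD

open Fermat.Agent.H72.FF Fermat.Agent.H18.ORD Fermat.Agent.H66 Fermat.Agent.H27.ESD
  Fermat.Agent.H84.ORD Fermat.Agent.H39.ORD Fermat.Agent.H2.ORD Fermat.Agent.H37.ORD

/-! ### Small lemmas -/

section Small

variable {N : ℕ} (A : ValuationSubring Qb) (P : Place Qb (FLb N))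

/-- `𝔐_P` is prime in the composite valuation ring -/
theorem crt_mul_not_mem_nmMax (hdeg : P.deg = 1) {f g : FLb N} (hf : f ∈ nmInt A P)
    (hg : g ∈ nmInt A P) (hf' : f ∉ nmMax A P) (hg' : g ∉ nmMax A P) : f * g ∉ nmMax A P := by
  rw [← mem_nonunits_nmComp_iff A P hdeg] at hf' hg' ⊢
  rw [ValuationSubring.mem_nonunits_iff, not_lt] at hf' hg' ⊢
  have h1 : (nmComp A P hdeg).valuation f ≤ 1 :=
    (ValuationSubring.valuation_le_one_iff _ _).2 hf
  have h2 : (nmComp A P hdeg).valuation g ≤ 1 :=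
    (ValuationSubring.valuation_le_one_iff _ _).2 hg
  rw [map_mul, le_antisymm h1 hf', le_antisymm h2 hg', one_mul]

variable {K F : Type} [Field K] [Field F] [Algebra K F]

/-- `z ∈ 𝔪_Q`, `ord_Q t = 1` : `z / t ∈ O_Q` -/
theorem crt_div_mem (Q : Place K F) {z t : F} (hz : z ∈ Q.toValuationSubring.nonunits)
    (ht : Q.ord t = 1) : z * t⁻¹ ∈ Q.toValuationSubring := by
  rcases (nb_mem_nonunits_iff Q z).1 hz with h0 | h1
  · rw [h0, zero_mul]
    exact Q.toValuationSubring.zero_mem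
  · have ht0 : t ≠ 0 := by
      intro h
      rw [h, Place.ord_zero] at ht
      omega
    have hz0 : z ≠ 0 := by
      intro h
      rw [h, Place.ord_zero] at h1
      omega
    apply Fermat.Agent.H23.mem_of_ord_nonneg
    rw [Place.ord_mul Q hz0 (inv_ne_zero ht0), Place.ord_inv, ht]
    omega

theorem crt_ne_zero_of_ord (Q : Place K F) {t : F} (ht : Q.ord t = 1) : t ≠ 0 := by
  intro h
  rw [h, Place.ord_zero] at ht
  omega

end Small

/-! ### The theorem -/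

section Main

variable {M p : ℕ} [NeZero M] [NeZero p]

set_option maxHeartbeats 3200000 in
/-- **[CRT], chart `j`**, from [TOTI], [DVR] and [XY]. -/
theorem nmCrt (hT : NmTotIdealStatement M p) (hDo : NmDvrOoStatement M p)
    (hDz : NmDvrZeroStatement M p) (hX : NmCrossStatement M p) : NmCrtStatement M p := by
  intro A h htot hj hj0 a b ha hb hg
  classical
  have hpM : ¬ p ∣ M := fun hd =>
    h.prime.one_lt.ne' (Nat.Coprime.eq_one_of_dvd h.cop.symm hd)
  haveI : IsAlgClosed (kRes A) :=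
    (Fermat.Agent.H92.ORD.b1_rrHyp_nmF M p h.prime hpM A h.liesOver).1
  have H : NmBase M p A := nmBase_of_soft (Fermat.Agent.H20.ORD.nmSoft M p) h
  -- the chart lies in both Gauss rings
  have hBo : nmChart (M * p) A (nmJ (M * p)) ≤ gaussOBar (M * p) A := fun f hf =>
    nmChart_le A H.oo.val (fun c hc => H.oo.const_mem c hc) H.oo.j_mem hf
  have hBz : nmChart (M * p) A (nmJ (M * p)) ≤ nmV0 M p h.cop A := fun f hf =>
    nmChart_le A H.zero.val (fun c hc => H.zero.const_mem c hc) H.zero.j_mem hf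
  -- the two reductions on the chart
  let ro : ↥(nmChart (M * p) A (nmJ (M * p))) →+* NmF (M * p) A :=
    (nmRedOo (M * p) A).comp (Subring.inclusion hBo)
  let rz : ↥(nmChart (M * p) A (nmJ (M * p))) →+* NmF (M * p) A :=
    (nmRed0 M p h.cop A).comp (Subring.inclusion hBz)
  have hro : ∀ (f : FLb (M * p)) (hf : f ∈ nmChart (M * p) A (nmJ (M * p)))
      (hf' : f ∈ gaussOBar (M * p) A), nmRedOo (M * p) A ⟨f, hf'⟩ = ro ⟨f, hf⟩ :=
    fun _ _ _ => rfl
  have hrz : ∀ (f : FLb (M * p)) (hf : f ∈ nmChart (M * p) A (nmJ (M * p)))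
      (hf' : f ∈ nmV0 M p h.cop A), nmRed0 M p h.cop A ⟨f, hf'⟩ = rz ⟨f, hf⟩ :=
    fun _ _ _ => rfl
  -- the conductor ideal
  let I : Ideal ↥(nmChart (M * p) A (nmJ (M * p))) :=
    { carrier := {s | ∃ f, ro f = ro s * a ∧ rz f = rz s * b}
      add_mem' := by
        rintro s t ⟨f, hf1, hf2⟩ ⟨g, hg1, hg2⟩
        exact ⟨f + g, by rw [map_add, map_add, hf1, hg1, add_mul],
          by rw [map_add, map_add, hf2, hg2, add_mul]⟩
      zero_mem' := ⟨0, by rw [map_zero, zero_mul], by rw [map_zero, zero_mul]⟩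
      smul_mem' := by
        rintro c s ⟨f, hf1, hf2⟩
        exact ⟨c * f, by rw [smul_eq_mul, map_mul, map_mul, hf1, mul_assoc],
          by rw [smul_eq_mul, map_mul, map_mul, hf2, mul_assoc]⟩ }
  have hImem : ∀ s, s ∈ I ↔ ∃ f, ro f = ro s * a ∧ rz f = rz s * b := fun _ => Iff.rfl
  suffices hI : I = ⊤ by
    have h1 : (1 : ↥(nmChart (M * p) A (nmJ (M * p)))) ∈ I := by rw [hI]; trivial
    obtain ⟨f, hf1, hf2⟩ := (hImem 1).1 h1
    rw [map_one, one_mul] at hf1 hf2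
    exact ⟨f, f.2, hBo f.2, hBz f.2, hf1, hf2⟩
  by_contra hne
  obtain ⟨S, hS, hIS⟩ := Ideal.exists_le_maximal I hne
  -- `𝔪_A ⊆ I ⊆ S`
  have hm : ∀ (c : Qb) (hc : c ∈ A.nonunits),
      (⟨algebraMap Qb (FLb (M * p)) c,
        algebraMap_mem_nmChart A (nmJ (M * p)) (ValuationSubring.nonunits_subset hc)⟩ :
          ↥(nmChart (M * p) A (nmJ (M * p)))) ∈ S := by
    intro c hc
    apply hIS
    rw [hImem]
    refine ⟨0, ?_, ?_⟩
    · rw [map_zero]
      have e : ro ⟨algebraMap Qb (FLb (M * p)) c,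
          algebraMap_mem_nmChart A (nmJ (M * p)) (ValuationSubring.nonunits_subset hc)⟩ = 0 :=
        H.oo.red_const_nonunit hc
      rw [e, zero_mul]
    · rw [map_zero]
      have e : rz ⟨algebraMap Qb (FLb (M * p)) c,
          algebraMap_mem_nmChart A (nmJ (M * p)) (ValuationSubring.nonunits_subset hc)⟩ = 0 :=
        H.zero.red_const_nonunit hc
      rw [e, zero_mul]
  -- `S` is the centre of a place `P` in the chart `j`
  obtain ⟨P, hJP, hSP⟩ := crtm_centre A (nsj_transcendental (M * p)) (nsj_finite (M * p))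
    H.deg hS hm
  have hY : nmY A P = nmJ (M * p) := by
    unfold nmY
    rw [if_pos hJP]
  have hint : ∀ f ∈ nmChart (M * p) A (nmJ (M * p)), f ∈ nmInt A P := fun f hf =>
    nmChart_le A (nmComp A P (H.deg P)) (fun _ hc => algebraMap_mem_nmComp A P (H.deg P) hc)
      hJP hf
  suffices key : ∃ s : ↥(nmChart (M * p) A (nmJ (M * p))), s ∈ I ∧ (s : FLb (M * p)) ∉ nmMax A P by
    obtain ⟨s, hsI, hsP⟩ := key
    exact hsP ((hSP s).1 (hIS hsI))
  have hJchart : nmJ (M * p) ∈ nmChart (M * p) A (nmY A P) := by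
    rw [hY]
    exact self_mem_nmChart A _
  -- the smooth case on `C_∞`
  have smoothOo : NmIdealOo M p A P → ¬ NmIdealZero M p h.cop A P →
      ∃ s : ↥(nmChart (M * p) A (nmJ (M * p))), s ∈ I ∧ (s : FLb (M * p)) ∉ nmMax A P := by
    intro hio hiz
    unfold NmIdealZero at hiz
    push Not at hiz
    obtain ⟨e, heB, heV, he0, heP⟩ := hiz
    rw [hY] at heB
    obtain ⟨Q, hQ, hloc⟩ := hDo A h P hio
    have hJQ : nmRedOo (M * p) A ⟨nmJ (M * p), hj⟩ ∈ Q.toValuationSubring :=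
      H.redOo_mem hQ hJchart hj
    have haQ : a ∈ Q.toValuationSubring :=
      Fermat.Agent.H23.mem_of_ord_nonneg Q (ha Q (Fermat.Agent.H23.ord_nonneg_of_mem Q hJQ))
    obtain ⟨f, s, hfV, hsV, hfB, hsB, hsP, hfs⟩ := hloc a haQ
    rw [hY] at hfB hsB
    refine ⟨⟨s, hsB⟩ * ⟨e, heB⟩, ?_, ?_⟩
    · rw [hImem]
      refine ⟨⟨f, hfB⟩ * ⟨e, heB⟩, ?_, ?_⟩
      · rw [map_mul, map_mul, ← hro f hfB hfV, ← hro s hsB hsV, hfs]
        ring
      · rw [map_mul, map_mul, ← hrz e heB heV, he0]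
        ring
    · exact crt_mul_not_mem_nmMax A P (H.deg P) (hint s hsB) (hint e heB) hsP heP
  -- the smooth case on `C_0`
  have smoothZero : NmIdealZero M p h.cop A P → ¬ NmIdealOo M p A P →
      ∃ s : ↥(nmChart (M * p) A (nmJ (M * p))), s ∈ I ∧ (s : FLb (M * p)) ∉ nmMax A P := by
    intro hiz hio
    unfold NmIdealOo at hio
    push Not at hio
    obtain ⟨e, heB, heV, he0, heP⟩ := hio
    rw [hY] at heB
    obtain ⟨Q, hQ, hloc⟩ := hDz A h P hiz
    have hJQ : nmRed0 M p h.cop A ⟨nmJ (M * p), hj0⟩ ∈ Q.toValuationSubring :=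
      H.red0_mem hQ hJchart hj0
    have hbQ : b ∈ Q.toValuationSubring :=
      Fermat.Agent.H23.mem_of_ord_nonneg Q (hb Q (Fermat.Agent.H23.ord_nonneg_of_mem Q hJQ))
    obtain ⟨f, s, hfV, hsV, hfB, hsB, hsP, hfs⟩ := hloc b hbQ
    rw [hY] at hfB hsB
    refine ⟨⟨s, hsB⟩ * ⟨e, heB⟩, ?_, ?_⟩
    · rw [hImem]
      refine ⟨⟨f, hfB⟩ * ⟨e, heB⟩, ?_, ?_⟩
      · rw [map_mul, map_mul, ← hro e heB heV, he0]
        ring
      · rw [map_mul, map_mul, ← hrz f hfB hfV, ← hrz s hsB hsV, hfs]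
        ring
    · exact crt_mul_not_mem_nmMax A P (H.deg P) (hint s hsB) (hint e heB) hsP heP
  -- the node case
  have node : NmIdealOo M p A P → NmIdealZero M p h.cop A P →
      ∃ s : ↥(nmChart (M * p) A (nmJ (M * p))), s ∈ I ∧ (s : FLb (M * p)) ∉ nmMax A P := by
    intro hio hiz
    obtain ⟨-, X, Y, d, ψ, hXB, hYB, -, -, -, -, -, -, -, ⟨hXo, hXo0⟩, ⟨hYz, hYz0⟩, Q, Q',
      hQ, hQ', ⟨hYo, hYord⟩, ⟨hXz, hXord⟩⟩ := hX A h P hio hiz
    -- the node and its branches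
    let ν : NmNode M p h.cop A := ⟨nmCentre A P, ⟨⟨P, rfl⟩, ⟨Q, hQ⟩, ⟨Q', hQ'⟩⟩⟩
    have hνo : (nmG htot).nOo ν = Q :=
      (H.specOo_unique hDo (P := P) hQ (nmNOo_spec M p h.cop A ν)).symm
    have hνz : (nmG htot).n0 ν = Q' :=
      (H.specZero_unique hDz (P := P) hQ' (nmN0_spec M p h.cop A ν)).symm
    obtain ⟨κ, hκa, hκb⟩ := hg ν
    rw [hνo] at hκa
    rw [hνz] at hκb
    obtain ⟨c, rfl⟩ := IsLocalRing.residue_surjective κ
    have hcB : algebraMap Qb (FLb (M * p)) (c : Qb) ∈ nmChart (M * p) A (nmJ (M * p)) :=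
      algebraMap_mem_nmChart A _ c.2
    have hroc : ro ⟨_, hcB⟩ = algebraMap (kRes A) (NmF (M * p) A) (IsLocalRing.residue A c) :=
      H.oo.red_const c _
    have hrzc : rz ⟨_, hcB⟩ = algebraMap (kRes A) (NmF (M * p) A) (IsLocalRing.residue A c) :=
      H.zero.red_const c _
    -- the local lifts
    obtain ⟨Q₁, hQ₁, hloc₁⟩ := hDo A h P hio
    have e₁ : Q₁ = Q := H.specOo_unique hDo (P := P) hQ₁ hQ
    subst e₁
    obtain ⟨Q₂, hQ₂, hloc₂⟩ := hDz A h P hiz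
    have e₂ : Q₂ = Q' := H.specZero_unique hDz (P := P) hQ₂ hQ'
    subst e₂
    obtain ⟨f₁, s₁, hf₁V, hs₁V, hf₁B, hs₁B, hs₁P, hfs₁⟩ :=
      hloc₁ _ (crt_div_mem Q₁ hκa hYord)
    obtain ⟨f₂, s₂, hf₂V, hs₂V, hf₂B, hs₂B, hs₂P, hfs₂⟩ :=
      hloc₂ _ (crt_div_mem Q₂ hκb hXord)
    rw [hY] at hf₁B hs₁B hf₂B hs₂B
    have hY0 : ro ⟨Y, hYB⟩ ≠ 0 := crt_ne_zero_of_ord Q₁ hYord
    have hX0 : rz ⟨X, hXB⟩ ≠ 0 := crt_ne_zero_of_ord Q₂ hXord
    have hXoo : ro ⟨X, hXB⟩ = 0 := hXo0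
    have hYzz : rz ⟨Y, hYB⟩ = 0 := hYz0
    refine ⟨⟨s₁, hs₁B⟩ * ⟨s₂, hs₂B⟩, ?_, ?_⟩
    · rw [hImem]
      refine ⟨⟨_, hcB⟩ * (⟨s₁, hs₁B⟩ * ⟨s₂, hs₂B⟩) + ⟨s₂, hs₂B⟩ * ⟨Y, hYB⟩ * ⟨f₁, hf₁B⟩ +
        ⟨s₁, hs₁B⟩ * ⟨X, hXB⟩ * ⟨f₂, hf₂B⟩, ?_, ?_⟩
      · have h1 : ro ⟨f₁, hf₁B⟩ = (a - algebraMap (kRes A) (NmF (M * p) A)
            (IsLocalRing.residue A c)) * (ro ⟨Y, hYB⟩)⁻¹ * ro ⟨s₁, hs₁B⟩ := hfs₁
        simp only [map_add, map_mul, hroc, hXoo, h1]
        field_simp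
        ring
      · have h2 : rz ⟨f₂, hf₂B⟩ = (b - algebraMap (kRes A) (NmF (M * p) A)
            (IsLocalRing.residue A c)) * (rz ⟨X, hXB⟩)⁻¹ * rz ⟨s₂, hs₂B⟩ := hfs₂
        simp only [map_add, map_mul, hrzc, hYzz, h2]
        field_simp
        ring
    · exact crt_mul_not_mem_nmMax A P (H.deg P) (hint s₁ hs₁B) (hint s₂ hs₂B) hs₁P hs₂P
  rcases hT A h P with hio | hiz
  · by_cases hiz : NmIdealZero M p h.cop A P
    · exact node hio hiz
    · exact smoothOo hio hiz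
  · by_cases hio : NmIdealOo M p A P
    · exact node hio hiz
    · exact smoothZero hiz hio

end Main

end Fermat.Agent.H5.ORD

end
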