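/-
helper5, P-ORD: THE FROZEN S33 FROM THE B1 BLOCK STATEMENTS ALONE.

  `s33_of_nmBlocks` : (∀ M p, p odd prime, p ∤ M, 4 ∣ M → `H92.ORD.NmBlocks M p`) → frozen S33

Everything else is plugged in:
  * (G-B)   `addApproxN_final` (this directory),
  * [N-SEP] `H16.ORD.exists_sep_of_rrHyp`,
  * B1-ASM  `H92.ORD.b1_instance_all`,
  * wiring  `H72.ORD.s33_of_add_sep_inst`.
-/
import Fermat.Agent.H5.ORD.AddFinal
import Fermat.Agent.H72.ORD.NodalSep
import Fermat.Agent.H92.ORD.NodalAsm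
import Fermat.Agent.H16.ORD.SepRR

set_option autoImplicit false
set_option synthInstance.maxHeartbeats 400000
set_option linter.unusedSectionVars false

namespace Fermat.Agent.H5.ORD

/-- [N-SEP] in the statement form of helper72. -/
theorem sepOfRR_final : Fermat.Agent.H72.ORD.SepOfRRStatement :=
  fun _ _ _ _ _ _ h => Fermat.Agent.H16.ORD.exists_sep_of_rrHyp h

section S33

variable {p : ℕ} {N : ℕ} [NeZero N] {S : Finset ℕ}
  {𝒪 : Type} [CommRing 𝒪] [IsDomain 𝒪] [IsDiscreteValuationRing 𝒪]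
  [IsAdicComplete (IsLocalRing.maximalIdeal 𝒪) 𝒪]
  {θ : CuspForm.heckeAlgebra N 2 (↑S : Set ℕ) →+* IsLocalRing.ResidueField 𝒪}
  {T : Type} [CommRing T] [IsLocalRing T] [IsNoetherianRing T]
  [IsAdicComplete (IsLocalRing.maximalIdeal T) T] [Algebra 𝒪 T] [IsLocalHom (algebraMap 𝒪 T)]
  [Module.Finite 𝒪 T] [Module.Free 𝒪 T]

/-- **The frozen S33 from the B1 block statements** for the concrete nodal model `nmG` of
`X₀(M p)` (`p` odd, `p ∤ M`, `4 ∣ M`); (G-A), (G-B), (G-C), SYS, LEVEL, [N-SEP] are plugged in. -/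
theorem s33_of_nmBlocks
    (hB : ∀ (M p : ℕ) [NeZero M] [NeZero p], p.Prime → p ≠ 2 → Nat.Coprime M p → 4 ∣ M →
      Fermat.Agent.H92.ORD.NmBlocks M p)
    [Finite (IsLocalRing.ResidueField 𝒪)] [CharZero 𝒪]
    (hp : p.Prime) (hp2 : p ≠ 2) (hp𝒪 : (p : 𝒪) ∈ IsLocalRing.maximalIdeal 𝒪)
    (hN : p ∣ N ∧ ¬ p ^ 2 ∣ N)
    (hNS : ∀ q : ℕ, q.Prime → q ∣ N → q ∈ S)
    (H : CuspForm.HeckeGaloisRepDatum N (↑S : Set ℕ) 𝒪 θ T)
    (hres : (GaloisRepAdic.ofResidualGaloisRep H.ρ.residual).IsOrdinaryAt p) :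
    H.ρ.IsOrdinaryAt p :=
  Fermat.Agent.H72.ORD.s33_of_add_sep_inst addApproxN_final sepOfRR_final
    (Fermat.Agent.H92.ORD.b1_instance_all hB) hp hp2 hp𝒪 hN hNS H hres

end S33

end Fermat.Agent.H5.ORD
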